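/-
S45, project CARAYOL-K (chief helper122), block TAB (architect helper117): THE TABLE OF THE VERTICAL VALUATIONS
of the tower `F_k = K(X₀(N₀ q^k))`, by induction on `k`.  Blueprint: report #1687, section 2.   DEFINITIONS.

Abstract setting: a tower of fields `F k` with two degeneracy maps `al k, be k : F k → F (k + 1)` (`f(z) ↦ f(z)`, `f(z) ↦ f(q z)`),
`be ∘ al = al ∘ be`, of degree `q` for `k ≥ 1`; `x ∈ F 0` (`= j`), `xs k i = x(q^i z) ∈ F k` (`i ≤ k`), Kronecker's relation between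
`x(z)`, `x(q z)`; `O` = the vertical valuation ring of `F 0` (good reduction).
A valuation ring `W` of `F k` is VERTICAL if `W.comap (dA k) = O` (`dA k = al ^ k`).
The vertical valuation of type `F^a V^b` (`a + b = k`) is `W b` (index = number of `V`'s; junk for `b > k`).
* `al` forgets the last letter:  `(W' b).comap al = W (b - 1)`;   `be` forgets the first one: `(W' b).comap be = W (min b k)`.
* uniformiser `ϖ b`: `q` for `b = 0, k`; `x_k - x_0` for `2 b = k`; `al (ϖ (b - 1))` for `2 b > k`; `be (ϖ b)` for `2 b < k`.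
* invariants replacing the computation of the residue fields: `x_k` is not a `q`-th power in the residue field if `2 b ≥ k` (`hi`),
  `x_0` is not a `q`-th power if `2 b ≤ k` (`lo`).
-/
import Mathlib
import Fermat.Agent.S18.Defs
import Fermat.Agent.S36.BP.Defs
import Fermat.Agent.S36.ModelStatement
import Fermat.Agent.S45.K.Defs

set_option autoImplicit false

noncomputable section

namespace Fermat.Agent.S45.Tab

open Fermat.Agent.S18 Fermat.Agent.S36 Fermat.Agent.S36.BP Fermat.Agent.S45.K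

/-- A tower of fields with two commuting degeneracy maps. -/
structure Tower where
  F : ℕ → Type
  [fld : ∀ k, Field (F k)]
  [chr : ∀ k, CharZero (F k)]
  al : ∀ k, F k →+* F (k + 1)
  be : ∀ k, F k →+* F (k + 1)
  comm : ∀ k (y : F k), be (k + 1) (al k y) = al (k + 1) (be k y)

attribute [instance] Tower.fld Tower.chr

namespace Tower

variable (T : Tower)

/-- `δ₀ = al ^ k : F 0 → F k`. -/
def dA : ∀ k, T.F 0 →+* T.F k
  | 0 => RingHom.id _
  | k + 1 => (T.al k).comp (dA k)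

/-- `x_i = x(q^i z) ∈ F k` (`i ≤ k`; junk for `i > k`). -/
def xs (x : T.F 0) : ∀ k, ℕ → T.F k
  | 0, _ => x
  | k + 1, i => if i ≤ k then T.al k (xs x k i) else T.be k (xs x k k)

end Tower

/-- Kronecker's relation `(X^q - Y)(X - Y^q) + q Ψ(X, Y) = 0`, `Ψ ∈ ℤ[X, Y]`. -/
def Kron {R : Type*} [CommRing R] (q : ℕ) (ψ : ℕ → ℕ → ℤ) (X Y : R) : Prop :=
  (X ^ q - Y) * (X - Y ^ q) + (q : R) * ∑ a ∈ Finset.range (q + 1), ∑ b ∈ Finset.range (q + 1),
    (ψ a b : R) * X ^ a * Y ^ b = 0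

variable (T : Tower) (q : ℕ) (O : ValuationSubring (T.F 0)) (x : T.F 0)

/-- **The table of level `k`.** -/
structure Table (k : ℕ) (W : ℕ → ValuationSubring (T.F k)) (ϖ : ℕ → T.F k) : Prop where
  vert : ∀ b ≤ k, (W b).comap (T.dA k) = O
  complete : ∀ W' : ValuationSubring (T.F k), W'.comap (T.dA k) = O → ∃ b ≤ k, W' = W b
  inj : ∀ b ≤ k, ∀ b' ≤ k, W b = W b' → b = b'
  unif : ∀ b ≤ k, IsUnif (W b) (ϖ b)
  ram : ∀ b ≤ k, ∃ e : ℕ, 1 ≤ e ∧ e ≤ q ^ k ∧
    (W b).valuation (ϖ b) ^ e = (W b).valuation (q : T.F k)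
  unif_zero : ϖ 0 = (q : T.F k)
  unif_top : ϖ k = (q : T.F k)
  unif_mid : ∀ a, 1 ≤ a → k = 2 * a → ϖ a = T.xs x k k - T.xs x k 0
  xmem : ∀ b ≤ k, ∀ i ≤ k, T.xs x k i ∈ W b
  hi : ∀ b ≤ k, k ≤ 2 * b → ∀ y ∈ W b, ¬ (W b).valuation (y ^ q - T.xs x k k) < 1
  lo : ∀ b ≤ k, 2 * b ≤ k → ∀ y ∈ W b, ¬ (W b).valuation (y ^ q - T.xs x k 0) < 1
  last : ∀ b ≤ k, 1 ≤ b → (W b).valuation (T.xs x k (k - 1) - T.xs x k k ^ q) < 1
  first : ∀ b < k, (W b).valuation (T.xs x k 1 - T.xs x k 0 ^ q) < 1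

/-- **Compatibility of the tables of levels `k` and `k + 1`.** -/
structure Compat (k : ℕ) (W : ℕ → ValuationSubring (T.F k)) (ϖ : ℕ → T.F k)
    (W' : ℕ → ValuationSubring (T.F (k + 1))) (ϖ' : ℕ → T.F (k + 1)) : Prop where
  resA : ∀ b ≤ k + 1, (W' b).comap (T.al k) = W (b - 1)
  resB : ∀ b ≤ k + 1, (W' b).comap (T.be k) = W (min b k)
  unifA : ∀ b ≤ k + 1, k + 1 < 2 * b → ϖ' b = T.al k (ϖ (b - 1))
  unifB : ∀ b ≤ k + 1, 2 * b < k + 1 → ϖ' b = T.be k (ϖ b)

/-- The general hypotheses on the tower (block MOD). -/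
structure Hyp (ψ : ℕ → ℕ → ℤ) : Prop where
  prime : q.Prime
  degA : ∀ k, 1 ≤ k → (letI := (T.al k).toAlgebra; Module.finrank (T.F k) (T.F (k + 1))) = q
  degB : ∀ k, 1 ≤ k → (letI := (T.be k).toAlgebra; Module.finrank (T.F k) (T.F (k + 1))) = q
  kronAB : Kron q ψ (T.al 0 x) (T.be 0 x)
  kronBA : Kron q ψ (T.be 0 x) (T.al 0 x)
  /-- at level `1` "vertical" is symmetric in `al`, `be` -/
  vert1 : ∀ W : ValuationSubring (T.F 1), W.comap (T.al 0) = O ↔ W.comap (T.be 0) = O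

/-- What the induction carries at the levels `k`, `k + 1`. -/
structure Pair (k : ℕ) (W : ℕ → ValuationSubring (T.F k)) (ϖ : ℕ → T.F k)
    (W' : ℕ → ValuationSubring (T.F (k + 1))) (ϖ' : ℕ → T.F (k + 1)) : Prop where
  tab : Table T q O x k W ϖ
  tab' : Table T q O x (k + 1) W' ϖ'
  compat : Compat T k W ϖ W' ϖ'
  /-- `F^(k+1)` is radicial for `be`, `V^(k+1)` is radicial for `al` -/
  radB : Rad q (embNorm (T.be k)) (W' 0)
  radA : Rad q (embNorm (T.al k)) (W' (k + 1))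

end Fermat.Agent.S45.Tab

end
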