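/-
S45 / TAB (architect helper117).  LEAF T11: transfer of valuations along `W.comap φ = U`, and small facts on tables.
PROOFS.  `letI := φ.toAlgebra` and `S36/BP/Build/Half.lean` (`tr_mem_iff`, `tr_le_one_iff`, `tr_lt_one_iff`, `tr_eq_one_iff`), or directly:
`ValuationSubring.mem_comap`, `ValuationSubring.valuation_le_one_iff`, `valuation_lt_one_iff_inv_notMem` (`HalfCentre.lean`).
`co_pow_eq`: `a ^ e / b` is a unit of `U` (if `b ≠ 0`; if `b = 0` then `a = 0` or `e = 0` ...: treat `b = 0` separately), so `φ a ^ e / φ b` is a unit of `W`.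
`Table.q_lt_one`: `ram` + `approx_val_unif_lt_one`/`valuation_unif_lt_one` (`U ϖ < 1`), `pow_lt_one₀`.
(proved by helper141)
-/
import Fermat.Agent.S45.Tab.Defs
import Fermat.Agent.S36.BP.Build.Half

set_option autoImplicit false

namespace Fermat.Agent.S45.Tab

open Fermat.Agent.S18

section Transfer

variable {F₁ F : Type*} [Field F₁] [Field F] {φ : F₁ →+* F} {U : ValuationSubring F₁}
  {W : ValuationSubring F}

theorem co_mem_iff (h : W.comap φ = U) (a : F₁) : φ a ∈ W ↔ a ∈ U := by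
  rw [← h, ValuationSubring.mem_comap]

theorem co_lt_one_iff (h : W.comap φ = U) (a : F₁) :
    W.valuation (φ a) < 1 ↔ U.valuation a < 1 := by
  letI := φ.toAlgebra
  exact Fermat.Agent.S36.BP.BuildHalf.tr_lt_one_iff (K := F₁) (L := F) h a

theorem co_eq_one_iff (h : W.comap φ = U) (a : F₁) :
    W.valuation (φ a) = 1 ↔ U.valuation a = 1 := by
  letI := φ.toAlgebra
  exact Fermat.Agent.S36.BP.BuildHalf.tr_eq_one_iff (K := F₁) (L := F) h a

theorem co_le_iff (h : W.comap φ = U) (a b : F₁) :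
    W.valuation (φ a) ≤ W.valuation (φ b) ↔ U.valuation a ≤ U.valuation b := by
  rcases eq_or_ne b 0 with rfl | hb
  · simp
  have hb' : φ b ≠ 0 := (map_ne_zero φ).mpr hb
  have hU : U.valuation b ≠ 0 := (Valuation.ne_zero_iff _).mpr hb
  have hW : W.valuation (φ b) ≠ 0 := (Valuation.ne_zero_iff _).mpr hb'
  have h1 : U.valuation a ≤ U.valuation b ↔ a / b ∈ U := by
    rw [← ValuationSubring.valuation_le_one_iff, map_div₀, div_le_one₀ (zero_lt_iff.mpr hU)]
  have h2 : W.valuation (φ a) ≤ W.valuation (φ b) ↔ φ (a / b) ∈ W := by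
    rw [← ValuationSubring.valuation_le_one_iff, map_div₀, map_div₀,
      div_le_one₀ (zero_lt_iff.mpr hW)]
  rw [h1, h2, co_mem_iff h]

theorem co_pow_eq (h : W.comap φ = U) {a b : F₁} {e : ℕ}
    (hab : U.valuation a ^ e = U.valuation b) : W.valuation (φ a) ^ e = W.valuation (φ b) := by
  rw [← map_pow] at hab
  rw [← map_pow, ← map_pow]
  exact le_antisymm ((co_le_iff h _ _).mpr hab.le) ((co_le_iff h _ _).mpr hab.ge)

end Transfer

theorem unif_lt_one {F : Type*} [Field F] {U : ValuationSubring F} {ϖ : F} (h : IsUnif U ϖ) :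
    U.valuation ϖ < 1 := by
  refine lt_of_le_of_ne ((ValuationSubring.valuation_le_one_iff _ _).mpr h.mem) fun h1 => ?_
  apply h.inv_notMem
  rw [← ValuationSubring.valuation_le_one_iff, map_inv₀, h1, inv_one]

/-- every nonunit is divisible by the uniformiser -/
theorem le_unif {F : Type*} [Field F] {U : ValuationSubring F} {ϖ : F} (h : IsUnif U ϖ) {a : F}
    (ha : U.valuation a < 1) : U.valuation a ≤ U.valuation ϖ := by
  rcases eq_or_ne a 0 with rfl | ha0
  · simp
  have hϖ1 := unif_lt_one h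
  have hϖ0 : ϖ ≠ 0 := by
    rintro rfl
    exact h.inv_notMem (by simp [U.zero_mem])
  have hv0 : U.valuation ϖ ≠ 0 := (Valuation.ne_zero_iff _).mpr hϖ0
  obtain ⟨n, h1, h2⟩ := h.exists_zpow a ha0
  have e1 : U.valuation (a / ϖ ^ n) = 1 := by
    refine le_antisymm ((ValuationSubring.valuation_le_one_iff _ _).mpr h1) ?_
    have := (ValuationSubring.valuation_le_one_iff _ _).mpr h2
    rw [map_inv₀] at this
    have hne : U.valuation (a / ϖ ^ n) ≠ 0 :=
      (Valuation.ne_zero_iff _).mpr (div_ne_zero ha0 (zpow_ne_zero _ hϖ0))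
    exact (inv_le_one₀ (zero_lt_iff.mpr hne)).mp this
  rw [map_div₀, map_zpow₀, div_eq_one_iff_eq (zpow_ne_zero _ hv0)] at e1
  rw [e1] at ha ⊢
  have hn : 1 ≤ n := by
    by_contra hn
    have hn' : n ≤ 0 := by omega
    have : 1 ≤ U.valuation ϖ ^ n := by
      obtain ⟨m, rfl⟩ : ∃ m : ℕ, n = -(m : ℤ) := ⟨n.natAbs, by omega⟩
      rw [zpow_neg, zpow_natCast]
      exact (one_le_inv₀ (zero_lt_iff.mpr (pow_ne_zero _ hv0))).mpr (pow_le_one' hϖ1.le _)
    exact absurd ha (not_lt.mpr this)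
  obtain ⟨m, rfl⟩ : ∃ m : ℕ, n = (m : ℤ) + 1 := ⟨(n - 1).toNat, by omega⟩
  rw [zpow_add_one₀ hv0, zpow_natCast]
  exact mul_le_of_le_one_left' (pow_le_one' hϖ1.le _)

variable {T : Tower} {q : ℕ} {O : ValuationSubring (T.F 0)} {x : T.F 0} {k : ℕ}
  {W : ℕ → ValuationSubring (T.F k)} {ϖ : ℕ → T.F k}

theorem Table.q_lt_one (D : Table T q O x k W ϖ) {b : ℕ} (hb : b ≤ k) :
    (W b).valuation (q : T.F k) < 1 := by
  obtain ⟨e, he1, -, he⟩ := D.ram b hb
  rw [← he]
  exact pow_lt_one' (unif_lt_one (D.unif b hb)) (by omega)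

theorem Table.q_le_unif (D : Table T q O x k W ϖ) {b : ℕ} (hb : b ≤ k) :
    (W b).valuation (q : T.F k) ≤ (W b).valuation (ϖ b) :=
  le_unif (D.unif b hb) (D.q_lt_one hb)

end Fermat.Agent.S45.Tab
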