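/-
S45, block TAB (helper87), leaf KRON-RAM (statement of `S45/Tab/WIP/KronRamSkel.lean`, verbatim).  Proved by helper272.

`x0 = j(z)`, `x1 = j(qz)`, `y1 = j(q^(k-1) z)`, `y0 = j(q^k z)` on the valuation `W` of type
`F^a V^a`, `k = 2a`.  With `s = y1 - x1`, `z = y0 - x0`:  `W z ^ q = W s` and `z ^ q / s ≡ 1`.

Self-contained (imports only `S45/Mod/Tower.lean`): `KronRam.identity` is the algebraic identity
`s (u + q g) = z^q u + q z c`, `u = (X₁^q - Y₁)(X₂^q - Y₂)`, `KronRam.val` its valuative consequence.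
-/
import Fermat.Agent.S45.Mod.Tower

set_option autoImplicit false

namespace Fermat.Agent.S45.Tab

open Fermat.Agent.S45.Mod

namespace KronRam

theorem identity {R : Type*} [CommRing R] {q : ℕ} (hq : q.Prime) {ψ : ℕ → ℕ → ℤ}
    {X₁ Y₁ X₂ Y₂ : R} (h₁ : kronPoly q ψ X₁ Y₁ = 0) (h₂ : kronPoly q ψ X₂ Y₂ = 0) :
    ∃ g c : R, (X₁ - X₂) * ((X₁ ^ q - Y₁) * (X₂ ^ q - Y₂) + (q : R) * g) =
      (Y₁ - Y₂) ^ q * ((X₁ ^ q - Y₁) * (X₂ ^ q - Y₂)) + (q : R) * (Y₁ - Y₂) * c := by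
  unfold kronPoly at h₁ h₂
  set Ψ₁ : R := ∑ a ∈ Finset.range (q + 1), ∑ b ∈ Finset.range (q + 1),
    (ψ a b : R) * X₁ ^ a * Y₁ ^ b with hΨ₁
  set Ψ₂ : R := ∑ a ∈ Finset.range (q + 1), ∑ b ∈ Finset.range (q + 1),
    (ψ a b : R) * X₂ ^ a * Y₂ ^ b with hΨ₂
  obtain ⟨r, hr⟩ := exists_add_pow_prime_eq hq Y₂ (Y₁ - Y₂)
  have hY : Y₁ ^ q = Y₂ ^ q + (Y₁ - Y₂) ^ q + (q : R) * (Y₂ * (Y₁ - Y₂) * r) := by
    have e : Y₂ + (Y₁ - Y₂) = Y₁ := by ring
    rw [e] at hr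
    rw [hr]; ring
  have hmem : Ψ₁ * (X₂ ^ q - Y₂) - Ψ₂ * (X₁ ^ q - Y₁) ∈
      Ideal.span ({X₁ - X₂, Y₁ - Y₂} : Set R) := by
    rw [← Ideal.Quotient.eq_zero_iff_mem]
    have hX : Ideal.Quotient.mk (Ideal.span ({X₁ - X₂, Y₁ - Y₂} : Set R)) X₁ =
        Ideal.Quotient.mk (Ideal.span ({X₁ - X₂, Y₁ - Y₂} : Set R)) X₂ := by
      rw [Ideal.Quotient.eq]
      exact Ideal.subset_span (by simp)
    have hY' : Ideal.Quotient.mk (Ideal.span ({X₁ - X₂, Y₁ - Y₂} : Set R)) Y₁ =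
        Ideal.Quotient.mk (Ideal.span ({X₁ - X₂, Y₁ - Y₂} : Set R)) Y₂ := by
      rw [Ideal.Quotient.eq]
      exact Ideal.subset_span (by simp)
    rw [hΨ₁, hΨ₂]
    simp only [map_sub, map_mul, map_sum, map_pow, hX, hY', map_intCast]
    ring
  obtain ⟨g, c, hgc⟩ := Ideal.mem_span_pair.1 hmem
  refine ⟨g, Y₂ * r * ((X₁ ^ q - Y₁) * (X₂ ^ q - Y₂)) - c, ?_⟩
  have e₁ : (X₁ ^ q - Y₁) * (X₁ - Y₁ ^ q) = -((q : R) * Ψ₁) := by linear_combination h₁
  have e₂ : (X₂ ^ q - Y₂) * (X₂ - Y₂ ^ q) = -((q : R) * Ψ₂) := by linear_combination h₂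
  rw [hY] at e₁
  linear_combination (X₂ ^ q - Y₂) * e₁ - (X₁ ^ q - Y₁) * e₂ + (q : R) * hgc

theorem descend {F : Type*} [Field F] (W : ValuationSubring F) {q : ℕ} {ψ : ℕ → ℕ → ℤ}
    {X Y : F} (hX : X ∈ W) (hY : Y ∈ W) (h : kronPoly q ψ X Y = 0) :
    kronPoly q ψ (⟨X, hX⟩ : W) (⟨Y, hY⟩ : W) = 0 := by
  apply W.subtype_injective
  rw [map_kronPoly, map_zero]
  exact h

theorem val {F : Type*} [Field F] (W : ValuationSubring F) {q : ℕ} (hq : q.Prime)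
    {ψ : ℕ → ℕ → ℤ} {X₁ Y₁ X₂ Y₂ : F} (hX₁ : X₁ ∈ W) (hY₁ : Y₁ ∈ W) (hX₂ : X₂ ∈ W) (hY₂ : Y₂ ∈ W)
    (h₁ : kronPoly q ψ X₁ Y₁ = 0) (h₂ : kronPoly q ψ X₂ Y₂ = 0)
    (hA₁ : W.valuation (X₁ ^ q - Y₁) = 1) (hA₂ : W.valuation (X₂ ^ q - Y₂) = 1)
    (hs : W.valuation (X₁ - X₂) < 1) (hq0 : (q : F) ≠ 0)
    (hqs : W.valuation (q : F) ≤ W.valuation (X₁ - X₂)) :
    W.valuation (Y₁ - Y₂) < 1 ∧ W.valuation (Y₁ - Y₂) ^ q = W.valuation (X₁ - X₂) ∧
      W.valuation ((Y₁ - Y₂) ^ q / (X₁ - X₂) - 1) < 1 := by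
  obtain ⟨g', c', hgc'⟩ := identity hq (descend W hX₁ hY₁ h₁) (descend W hX₂ hY₂ h₂)
  have hgc := congrArg W.subtype hgc'
  simp only [map_add, map_mul, map_sub, map_pow, map_natCast] at hgc
  have hg : W.valuation (W.subtype g') ≤ 1 := W.valuation_le_one g'
  have hc : W.valuation (W.subtype c') ≤ 1 := W.valuation_le_one c'
  change (X₁ - X₂) * ((X₁ ^ q - Y₁) * (X₂ ^ q - Y₂) + (q : F) * W.subtype g') =
    (Y₁ - Y₂) ^ q * ((X₁ ^ q - Y₁) * (X₂ ^ q - Y₂)) + (q : F) * (Y₁ - Y₂) * W.subtype c' at hgc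
  generalize W.subtype g' = g at hg hgc
  generalize W.subtype c' = c at hc hgc
  set v := W.valuation with hv
  set s : F := X₁ - X₂ with hsdef
  set z : F := Y₁ - Y₂ with hzdef
  set u : F := (X₁ ^ q - Y₁) * (X₂ ^ q - Y₂) with hudef
  have hu : v u = 1 := by rw [hudef, map_mul, hA₁, hA₂, one_mul]
  have hu0 : u ≠ 0 := by
    intro h0; rw [h0, map_zero] at hu; exact zero_ne_one hu
  have hvq0 : v (q : F) ≠ 0 := (Valuation.ne_zero_iff _).2 hq0
  have hvq : v (q : F) < 1 := lt_of_le_of_lt hqs hs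
  have hs0 : s ≠ 0 := by
    intro h0
    rw [h0, map_zero] at hqs
    exact hvq0 (le_antisymm hqs zero_le')
  have hvs0 : v s ≠ 0 := (Valuation.ne_zero_iff _).2 hs0
  have hz1 : v z ≤ 1 := (W.valuation_le_one_iff z).2 (W.sub_mem hY₁ hY₂)
  have hqg : v ((q : F) * g) < 1 := by
    rw [map_mul]
    exact lt_of_le_of_lt (mul_le_of_le_one_right' hg) hvq
  have hug : v (u + (q : F) * g) = 1 := by
    rw [Valuation.map_add_eq_of_lt_left _ (by rw [hu]; exact hqg), hu]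
  have hL : v (s * (u + (q : F) * g)) = v s := by rw [map_mul, hug, mul_one]
  have hqzc : v ((q : F) * z * c) ≤ v (q : F) * v z := by
    rw [map_mul, map_mul]
    exact mul_le_of_le_one_right' hc
  have hz : v z < 1 := by
    refine lt_of_le_of_ne hz1 fun h1 => ?_
    have hR : v (z ^ q * u + (q : F) * z * c) = 1 := by
      have e1 : v (z ^ q * u) = 1 := by rw [map_mul, map_pow, h1, one_pow, hu, one_mul]
      rw [Valuation.map_add_eq_of_lt_left _ (by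
        rw [e1]; exact lt_of_le_of_lt hqzc (by rw [h1, mul_one]; exact hvq)), e1]
    rw [← hgc, hL] at hR
    exact (ne_of_lt hs) hR
  have hqz : v (q : F) * v z < v (q : F) := by
    have := mul_lt_mul_of_pos_left hz (zero_lt_iff.2 hvq0)
    rwa [mul_one] at this
  have hqzc' : v ((q : F) * z * c) < v s := lt_of_le_of_lt hqzc (lt_of_lt_of_le hqz hqs)
  have hzq : v z ^ q = v s := by
    have e : z ^ q * u = s * (u + (q : F) * g) - (q : F) * z * c := by rw [hgc]; ring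
    have e2 : v (z ^ q * u) = v s := by
      rw [e, Valuation.map_sub_eq_of_lt_left _ (by rw [hL]; exact hqzc'), hL]
    rwa [map_mul, map_pow, hu, mul_one] at e2
  refine ⟨hz, hzq, ?_⟩
  have e3 : z ^ q / s - 1 = (q : F) * g / u - (q : F) * z * c / (s * u) := by
    field_simp
    linear_combination -hgc
  rw [e3]
  refine Valuation.map_sub_lt _ ?_ ?_
  · rw [map_div₀, hu, div_one]; exact hqg
  · rw [map_div₀, map_mul v s u, hu, mul_one]
    exact (div_lt_one₀ (zero_lt_iff.2 hvs0)).2 hqzc'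

/-- `a ≡ b` implies `a ^ n ≡ b ^ n`. -/
theorem pow_sub_pow_lt {F : Type*} [Field F] (W : ValuationSubring F) {a b : F} (ha : a ∈ W)
    (hb : b ∈ W) (h : W.valuation (a - b) < 1) (n : ℕ) : W.valuation (a ^ n - b ^ n) < 1 := by
  obtain ⟨d, hd⟩ := sub_dvd_pow_sub_pow (⟨a, ha⟩ : W) (⟨b, hb⟩ : W) n
  have e := congrArg W.subtype hd
  simp only [map_mul, map_sub, map_pow] at e
  change a ^ n - b ^ n = (a - b) * W.subtype d at e
  rw [e, map_mul]
  exact lt_of_le_of_lt (mul_le_of_le_one_right' (W.valuation_le_one d)) h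

/-- Frobenius is injective on the residue field. -/
theorem sub_lt_of_pow {F : Type*} [Field F] (W : ValuationSubring F) {q : ℕ} (hq : q.Prime)
    (hqW : W.valuation (q : F) < 1) {a b : F} (ha : a ∈ W) (hb : b ∈ W)
    (h : W.valuation (a ^ q - b ^ q) < 1) : W.valuation (a - b) < 1 := by
  obtain ⟨r, hr⟩ := exists_add_pow_prime_eq hq (⟨b, hb⟩ : W) ((⟨a, ha⟩ : W) - ⟨b, hb⟩)
  have e := congrArg W.subtype hr
  simp only [map_mul, map_sub, map_pow, map_add, map_natCast] at e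
  change (b + (a - b)) ^ q = b ^ q + (a - b) ^ q + (q : F) * b * (a - b) * W.subtype r at e
  have hr1 : W.valuation (W.subtype r) ≤ 1 := W.valuation_le_one r
  generalize W.subtype r = r' at e hr1
  have e' : (a - b) ^ q = (a ^ q - b ^ q) - (q : F) * (b * (a - b) * r') := by
    have : b + (a - b) = a := by ring
    rw [this] at e
    rw [e]; ring
  have h1 : W.valuation ((a - b) ^ q) < 1 := by
    rw [e']
    refine Valuation.map_sub_lt _ h ?_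
    rw [map_mul]
    refine lt_of_le_of_lt (mul_le_of_le_one_right' ?_) hqW
    rw [map_mul, map_mul]
    exact mul_le_one' (mul_le_one' ((W.valuation_le_one_iff b).2 hb)
      ((W.valuation_le_one_iff _).2 (W.sub_mem ha hb))) hr1
  rw [map_pow] at h1
  by_contra hcon
  exact absurd h1 (not_lt.2 (one_le_pow₀ (not_lt.1 hcon)))

end KronRam

theorem kron_ram {F : Type*} [Field F] (W : ValuationSubring F) {q : ℕ} (hq : q.Prime)
    (hq0 : (q : F) ≠ 0) (hqW : W.valuation (q : F) < 1) (ψ : ℕ → ℕ → ℤ) {x0 x1 y1 y0 : F}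
    (hx0 : x0 ∈ W) (hx1 : x1 ∈ W) (hy1 : y1 ∈ W) (hy0 : y0 ∈ W)
    (h1 : kronPoly q ψ x1 x0 = 0) (h2 : kronPoly q ψ y1 y0 = 0)
    (hF : W.valuation (x1 - x0 ^ q) < 1) (hV : W.valuation (y1 - y0 ^ q) < 1)
    (hA : W.valuation (x1 ^ q - x0) = 1)
    (hs : W.valuation (y1 - x1) < 1) (hqs : W.valuation (q : F) ≤ W.valuation (y1 - x1)) :
    W.valuation (y0 - x0) ^ q = W.valuation (y1 - x1) ∧
      W.valuation ((y0 - x0) ^ q / (y1 - x1) - 1) < 1 := by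
  -- `y0 ≡ x0`
  have hz : W.valuation (y0 - x0) < 1 := by
    refine KronRam.sub_lt_of_pow W hq hqW hy0 hx0 ?_
    have e : y0 ^ q - x0 ^ q = (y1 - x1) + (x1 - x0 ^ q) - (y1 - y0 ^ q) := by ring
    rw [e]
    exact Valuation.map_sub_lt _ (Valuation.map_add_lt _ hs hF) hV
  -- `y1 ^ q - y0` is a unit
  have hA' : W.valuation (y1 ^ q - y0) = 1 := by
    have e : y1 ^ q - y0 = (x1 ^ q - x0) + ((y1 ^ q - x1 ^ q) - (y0 - x0)) := by ring
    rw [e, Valuation.map_add_eq_of_lt_left _ (by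
      rw [hA]
      exact Valuation.map_sub_lt _ (KronRam.pow_sub_pow_lt W hy1 hx1 hs q) hz), hA]
  exact (KronRam.val W hq hy1 hy0 hx1 hx0 h2 h1 hA' hA hs hq0 hqs).2

end Fermat.Agent.S45.Tab
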