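/-
S45, block TAB (helper87): the two ABSTRACT ONE-STEP LEMMAS of the table of vertical valuations.

`L / K` a field extension of prime degree `q`, `V` a discrete valuation ring of `K` with uniformiser
`s` and residue characteristic `q`, `W` a valuation subring of `L` above `V`.

* (INSEP) if one residue `y₀` of `W` is not a residue of `V` but `y₀ ^ q` is, then `W` is the only
  extension of `V`, `s` is a uniformiser of `W`, `W (N y) = W y ^ q`, `N y ≡ y ^ q` for units, and
  the residue field of `W` is generated by `y₀` over that of `V`.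
* (RAM) if `W z ^ q = W s`, then `W` is the only extension of `V`, `z` is a uniformiser of `W`,
  `W (N y) = W y ^ q`, `N y ≡ y ^ q` for units, and `V` is dense in `W`.
-/
import Fermat.Agent.S36.BP.Build.HalfComplete
import Fermat.Agent.S36.BP.Build.HalfOrd
import Fermat.Agent.S36.Mod.Count.Bridge

set_option autoImplicit false
set_option linter.style.haveILetI false

namespace Fermat.Agent.S45.Tab

open IsLocalRing IsDedekindDomain Fermat.Agent.S18 Fermat.Agent.S36.BP Fermat.Agent.S36.BP.BuildHalf

section Gen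

variable {K L : Type*} [Field K] [Field L] [Algebra K L]
variable {V : ValuationSubring K} [FiniteDimensional K L] [CharZero K] {W : ValuationSubring L}

theorem spec_valuationSubring [IsDiscreteValuationRing V] (hW : W.comap (algebraMap K L) = V) :
    ((spec hW).valuation L).valuationSubring = W := by
  ext x
  rw [Valuation.mem_valuationSubring_iff, spec_valuation_le_one_iff]

/-- the normalised valuation only depends on `W.valuation`. -/
theorem spec_valuation_congr [IsDiscreteValuationRing V] (hW : W.comap (algebraMap K L) = V)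
    {x y : L} (h : W.valuation x = W.valuation y) :
    (spec hW).valuation L x = (spec hW).valuation L y :=
  le_antisymm (halfRam_spec_valuation_mono hW h.le) (halfRam_spec_valuation_mono hW h.ge)

/-- One valuation above `V`, ramification index `e`: the normalised valuation of the uniformiser
of `V` is `exp (-e)`. -/
theorem spec_valuation_unif [IsDiscreteValuationRing V] {s : K} (hV : IsUnif V s) {e f : ℕ}
    (T : Tab V (fun _ : Unit => W) (fun _ => e) (fun _ => f)) :
    (spec (T.lies ())).valuation L (algebraMap K L s) = WithZero.exp (-(e : ℤ)) := by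
  set v := spec (T.lies ()) with hv
  set r : IC V L := algebraMap V (IC V L) ⟨s, hV.mem⟩ with hr
  have hrL : algebraMap (IC V L) L r = algebraMap K L s := rfl
  have hs0 : s ≠ 0 := hV.ne_zero
  have hr0 : r ≠ 0 := by
    intro h
    have := congrArg (algebraMap (IC V L) L) h
    rw [hrL, map_zero] at this
    exact hs0 ((map_eq_zero _).1 this)
  have hmax : maximalIdeal V = Ideal.span {(⟨s, hV.mem⟩ : V)} :=
    (hV.irreducible).maximalIdeal_eq
  have hspan : Ideal.span {r} = v.asIdeal ^ e := by
    have h1 := T.fac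
    rw [hmax, Ideal.map_span, Set.image_singleton] at h1
    rw [hr, h1]
    simp [hv, spec]
  rw [← hrL, HeightOneSpectrum.valuation_of_algebraMap]
  have h1 : v.intValuation r ≤ WithZero.exp (-(e : ℤ)) := by
    rw [HeightOneSpectrum.intValuation_le_pow_iff_mem, ← hspan]
    exact Ideal.mem_span_singleton_self r
  have h2 : ¬ v.intValuation r ≤ WithZero.exp (-((e + 1 : ℕ) : ℤ)) := by
    rw [HeightOneSpectrum.intValuation_le_pow_iff_mem]
    intro hmem
    have h3 : v.asIdeal ^ e ≤ v.asIdeal ^ (e + 1) := by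
      rw [← hspan, Ideal.span_singleton_le_iff_mem]
      exact hmem
    exact absurd h3 (not_le_of_gt
      (Ideal.pow_right_strictAnti v.asIdeal v.ne_bot v.isPrime.ne_top (Nat.lt_succ_self e)))
  have h0 : v.intValuation r ≠ 0 := v.intValuation_ne_zero r hr0
  rw [← WithZero.exp_log h0] at h1 h2 ⊢
  rw [WithZero.exp_le_exp] at h1 h2
  congr 1
  push_cast at h2
  omega

omit [FiniteDimensional K L] [CharZero K] in
/-- transfer of `valuation = 1` along `K → L`. -/
theorem val_map_eq_one (hW : W.comap (algebraMap K L) = V) {x : K} (h : V.valuation x = 1) :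
    W.valuation (algebraMap K L x) = 1 := (tr_eq_one_iff hW x).2 h

/-- **One valuation above `V`**: an element `z` with `W z ^ e = W s` is a uniformiser of `W`. -/
theorem isUnif_of_tab {s : K} (hV : IsUnif V s) {e f : ℕ}
    (T : Tab V (fun _ : Unit => W) (fun _ => e) (fun _ => f)) {z : L}
    (hz : W.valuation z ^ e = W.valuation (algebraMap K L s)) : IsUnif W z := by
  have := hV.isDiscreteValuationRing
  have he : 0 < e := T.e_pos ()
  have hW := T.lies ()
  have h1 : (spec hW).valuation L z ^ e = WithZero.exp (-(e : ℤ)) := by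
    rw [← spec_valuation_unif hV T, ← map_pow]
    exact spec_valuation_congr hW (by rw [map_pow, hz])
  have h2 : (spec hW).valuation L z = WithZero.exp (-1 : ℤ) := by
    have h3 : WithZero.exp (-(e : ℤ)) = WithZero.exp (-1 : ℤ) ^ e := by
      rw [← WithZero.exp_nsmul]
      congr 1
      simp
    rw [h3] at h1
    exact (pow_left_inj₀ zero_le zero_le he.ne').1 h1
  have h4 := Fermat.Agent.S36.Mod.Count.isUnif_of_valuation _ h2
  rwa [spec_valuationSubring hW] at h4

/-- **One valuation above `V`**: `W (N y) = W y ^ [L : K]`. -/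
theorem ord_of_tab {s : K} (hV : IsUnif V s) {e f : ℕ}
    (T : Tab V (fun _ : Unit => W) (fun _ => e) (fun _ => f)) {z : L}
    (hz : W.valuation z ^ e = W.valuation (algebraMap K L s)) (y : L) :
    W.valuation (algebraMap K L (Algebra.norm K y)) = W.valuation y ^ Module.finrank K L := by
  have := hV.isDiscreteValuationRing
  have he : 0 < e := T.e_pos ()
  have hW := T.lies ()
  have hU : IsUnif W z := isUnif_of_tab hV T hz
  have hn : Module.finrank K L ≠ 0 := Module.finrank_pos.ne'
  have hz0 : z ≠ 0 := hU.ne_zero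
  have hs0 : s ≠ 0 := hV.ne_zero
  have hunit : ∀ u : L, W.valuation u = 1 →
      W.valuation (algebraMap K L (Algebra.norm K u)) = 1 := fun u hu =>
    val_map_eq_one hW (T.norm_unit (fun _ => hu))
  -- the norm of `z`
  have hNz : W.valuation (algebraMap K L (Algebra.norm K z)) =
      W.valuation z ^ Module.finrank K L := by
    set r : L := z ^ e / algebraMap K L s with hr
    have hs0' : algebraMap K L s ≠ 0 := (map_ne_zero _).2 hs0
    have hr1 : W.valuation r = 1 := by
      rw [hr, map_div₀, map_pow, hz]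
      exact div_self ((Valuation.ne_zero_iff _).2 hs0')
    have hze : z ^ e = algebraMap K L s * r := by
      rw [hr]; field_simp
    have h1 : W.valuation (algebraMap K L (Algebra.norm K z)) ^ e =
        (W.valuation z ^ Module.finrank K L) ^ e := by
      rw [← map_pow, ← map_pow, ← map_pow, hze, map_mul, Algebra.norm_algebraMap, map_mul, map_mul,
        hunit r hr1, mul_one, map_pow, map_pow, ← hz, ← pow_mul, ← pow_mul, mul_comm]
    exact (pow_left_inj₀ zero_le zero_le he.ne').1 h1
  rcases eq_or_ne y 0 with rfl | hy0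
  · rw [Algebra.norm_zero, map_zero, map_zero, zero_pow hn]
  obtain ⟨m, hm1, hm2⟩ := hU.exists_zpow y hy0
  set u : L := y / z ^ m with hu
  have hu1 : W.valuation u = 1 :=
    (valuation_eq_one_iff_mem (div_ne_zero hy0 (zpow_ne_zero _ hz0))).2 ⟨hm1, hm2⟩
  have hNzpow : Algebra.norm K (z ^ m) = (Algebra.norm K z) ^ m :=
    map_zpow₀ (⟨⟨Algebra.norm K, Algebra.norm_zero⟩, map_one _, map_mul _⟩ : L →*₀ K) z m
  have hy : y = z ^ m * u := by
    rw [hu]; field_simp
  conv_lhs => rw [hy, map_mul, map_mul, map_mul, hunit u hu1, mul_one, hNzpow, map_zpow₀,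
    map_zpow₀, hNz]
  conv_rhs => rw [hy, map_mul, hu1, mul_one, map_zpow₀]
  rw [← zpow_natCast, ← zpow_natCast, ← zpow_mul, ← zpow_mul, mul_comm]

end Gen

section Field

variable {k l : Type*} [Field k] [Field l] [Algebra k l] [FiniteDimensional k l]

/-- a purely inseparable extension of prime degree is generated by any element outside the base. -/
theorem mem_adjoin_of_finrank_eq (q : ℕ) (hq : q.Prime) [CharP k q]
    (hdeg : Module.finrank k l = q) (y₀ : l) (c : k) (hy : y₀ ^ q = algebraMap k l c)
    (hn : y₀ ∉ Set.range (algebraMap k l)) (z : l) : z ∈ Algebra.adjoin k {y₀} := by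
  have hint : IsIntegral k y₀ := Algebra.IsIntegral.isIntegral y₀
  have htop : IntermediateField.adjoin k {y₀} = ⊤ := by
    apply IntermediateField.eq_of_le_of_finrank_le le_top
    rw [IntermediateField.finrank_top', hdeg]
    have hy' : (IntermediateField.AdjoinSimple.gen k y₀) ^ q
        = algebraMap k (IntermediateField.adjoin k {y₀}) c := by
      apply Subtype.ext
      simpa using hy
    refine le_finrank_of_pow_eq q hq (IntermediateField.AdjoinSimple.gen k y₀) c hy' ?_
    rintro ⟨d, hd⟩
    apply hn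
    refine ⟨d, ?_⟩
    have := congrArg (fun x : IntermediateField.adjoin k {y₀} => (x : l)) hd
    simpa using this
  have h1 : z ∈ (IntermediateField.adjoin k {y₀}).toSubalgebra := by
    rw [htop]; trivial
  rwa [IntermediateField.adjoin_simple_toSubalgebra_of_isAlgebraic hint.isAlgebraic] at h1

end Field

section Steps

variable {K L : Type*} [Field K] [Field L] [Algebra K L] [CharZero K]
variable {V : ValuationSubring K} {W : ValuationSubring L} {q : ℕ} {s : K}

/-- (INSEP) the table. -/
theorem tab_insep (hq : q.Prime) (hdeg : Module.finrank K L = q) (hV : IsUnif V s)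
    (hqV : V.valuation (q : K) < 1) (hW : W.comap (algebraMap K L) = V)
    {y₀ : L} (hy₀ : y₀ ∈ W) {c : K} (hc : W.valuation (algebraMap K L c - y₀ ^ q) < 1)
    (hn : ∀ y' : K, ¬ W.valuation (algebraMap K L y' - y₀) < 1) :
    Tab V (fun _ : Unit => W) (fun _ => 1) (fun _ => q) := by
  have hfin : FiniteDimensional K L := Module.finite_of_finrank_pos (by rw [hdeg]; exact hq.pos)
  have hd : IsDiscreteValuationRing V := hV.isDiscreteValuationRing
  refine tab_of_table (fun _ => hW) (fun _ _ _ => rfl) ?_ ?_ ?_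
  · intro _
    have := centre_isPrime (V := V) (W := W) hW.ge
    exact Ideal.ramificationIdx_pos (centre V W) V
  · intro _
    exact le_inertiaDeg hW hq hqV hy₀ hc hn
  · simp [hdeg]

/-- (RAM) the table. -/
theorem tab_ram (hq : q.Prime) (hdeg : Module.finrank K L = q) (hV : IsUnif V s)
    (hW : W.comap (algebraMap K L) = V) {z : L}
    (hz : W.valuation z ^ q = W.valuation (algebraMap K L s)) :
    Tab V (fun _ : Unit => W) (fun _ => q) (fun _ => 1) := by
  have hfin : FiniteDimensional K L := Module.finite_of_finrank_pos (by rw [hdeg]; exact hq.pos)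
  have hd : IsDiscreteValuationRing V := hV.isDiscreteValuationRing
  have hs1 : W.valuation (algebraMap K L s) < 1 :=
    (tr_lt_one_iff hW s).2 (approx_val_unif_lt_one hV)
  have hz1 : W.valuation z < 1 := by
    by_contra h
    rw [not_lt] at h
    exact absurd (hz ▸ one_le_pow₀ h) (not_le_of_gt hs1)
  have hmax := centre_isMaximal hW
  have hlies := centre_liesOver hW
  refine tab_of_table (fun _ => hW) (fun _ _ _ => rfl) ?_ ?_ ?_
  · intro _
    refine le_ramificationIdx hW hz1 (fun a ha => ?_)
    rw [hz]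
    have h1 : V.valuation a ≤ V.valuation s := approx_val_le_unif hV ha
    have hs0 : s ≠ 0 := hV.ne_zero
    have h2 : V.valuation (a / s) ≤ 1 := by
      rw [map_div₀]
      exact div_le_one_of_le₀ h1 zero_le
    have h3 : W.valuation (algebraMap K L (a / s)) ≤ 1 := (tr_le_one_iff hW _).2 h2
    have h4 : algebraMap K L a = algebraMap K L (a / s) * algebraMap K L s := by
      rw [← map_mul, div_mul_cancel₀ _ hs0]
    rw [h4, map_mul]
    exact mul_le_of_le_one_left' h3
  · intro _
    have := centre_isPrime (V := V) (W := W) hW.ge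
    exact Ideal.inertiaDeg_pos (centre V W) V
  · simp [hdeg]

/-- one valuation above, `f ∈ {1, q}`, `e f = q`: uniqueness, orders and residues of norms. -/
theorem rad_of_tab (hq : q.Prime) (hdeg : Module.finrank K L = q) (hV : IsUnif V s)
    (hqV : V.valuation (q : K) < 1) {e f : ℕ}
    (T : Tab V (fun _ : Unit => W) (fun _ => e) (fun _ => f)) (hf : f = 1 ∨ f = q)
    (hef : f * e = q) {z : L} (hz : W.valuation z ^ e = W.valuation (algebraMap K L s))
    (hc : ∀ y ∈ W, ∃ c : K, W.valuation (algebraMap K L c - y ^ f) < 1) :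
    (∀ W' : ValuationSubring L, W'.comap (algebraMap K L) = V → W' = W) ∧
    (∀ y : L, W.valuation (algebraMap K L (Algebra.norm K y)) = W.valuation y ^ q) ∧
    (∀ y : L, W.valuation y = 1 →
      W.valuation (algebraMap K L (Algebra.norm K y) - y ^ q) < 1) := by
  have hfin : FiniteDimensional K L := Module.finite_of_finrank_pos (by rw [hdeg]; exact hq.pos)
  have hd : IsDiscreteValuationRing V := hV.isDiscreteValuationRing
  have hW := T.lies ()
  refine ⟨fun W' h => ?_, fun y => ?_, fun y hy => ?_⟩
  · obtain ⟨_, h'⟩ := T.complete W' h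
    exact h'
  · rw [ord_of_tab hV T hz y, hdeg]
  · have hyW : y ∈ W := (W.valuation_le_one_iff _).1 hy.le
    obtain ⟨c, hc⟩ := hc y hyW
    have h1 := T.norm_cong hq hqV (fun _ => hf) (y := y) (fun _ => hyW) (fun _ => c) (fun _ => hc)
    simp only [Finset.univ_unique, Finset.prod_const, Finset.card_singleton, pow_one] at h1
    have h2 : Cong W (algebraMap K L (Algebra.norm K y)) (algebraMap K L c ^ e) := by
      rw [cong_iff, ← map_pow, ← map_sub]
      exact (tr_lt_one_iff hW _).2 h1
    have h3 : Cong W (algebraMap K L c ^ e) ((y ^ f) ^ e) :=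
      Cong.pow hc (by rw [map_pow, hy, one_pow]) e
    rw [← pow_mul, hef] at h3
    exact h2.trans h3

set_option synthInstance.maxHeartbeats 200000 in
set_option maxHeartbeats 1600000 in
/-- (INSEP) the residue field of `W` is generated by `y₀` over the residue field of `V`:
a subring `S` of `L` containing `y₀` and dense over `V` is dense in `W`. -/
theorem dense_insep_aux [IsDiscreteValuationRing V] [FiniteDimensional K L]
    (hW : W.comap (algebraMap K L) = V) (hq : q.Prime)
    (hqV : V.valuation (q : K) < 1) (hdeg : (centre V W).inertiaDeg V = q)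
    {y₀ : L} (hy₀ : y₀ ∈ W) {c : K} (hc : W.valuation (algebraMap K L c - y₀ ^ q) < 1)
    (hn : ∀ y' : K, ¬ W.valuation (algebraMap K L y' - y₀) < 1) (S : Subring L) (hS₀ : y₀ ∈ S)
    (hS : ∀ d ∈ V, ∃ t ∈ S, W.valuation (algebraMap K L d - t) < 1) {y : L} (hy : y ∈ W) :
    ∃ t ∈ S, W.valuation (t - y) < 1 := by
  have hmax := centre_isMaximal hW
  have hlies := centre_liesOver hW
  have hchar := charP_quotient_aux (V := V) hq hqV
  letI : Field (V ⧸ maximalIdeal V) := Ideal.Quotient.field _
  letI : Field (IC V L ⧸ centre V W) := Ideal.Quotient.field _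
  have hfr : Module.finrank (V ⧸ maximalIdeal V) (IC V L ⧸ centre V W) = q := by
    rw [← Ideal.inertiaDeg_eq_of_isMaximal (maximalIdeal V) (centre V W), hdeg]
  have hfin' : FiniteDimensional (V ⧸ maximalIdeal V) (IC V L ⧸ centre V W) :=
    Module.finite_of_finrank_pos (by rw [hfr]; exact hq.pos)
  obtain ⟨b₀, hb₀⟩ := exists_IC_cong hW hy₀
  obtain ⟨b, hb⟩ := exists_IC_cong hW hy
  have hy₀' : W.valuation y₀ ≤ 1 := (W.valuation_le_one_iff _).mpr hy₀
  have hcV : c ∈ V := by
    rw [← hW, ValuationSubring.mem_comap, ← ValuationSubring.valuation_le_one_iff]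
    exact Cong.le_one (V := W) hc (by rw [map_pow]; exact pow_le_one' hy₀' q)
  have key : ∀ (x : IC V L) (d : V), Ideal.Quotient.mk (centre V W) x =
      algebraMap (V ⧸ maximalIdeal V) (IC V L ⧸ centre V W) (Ideal.Quotient.mk _ d) ↔
      W.valuation ((x : L) - algebraMap K L (d : K)) < 1 := by
    intro x d
    rw [Ideal.Quotient.algebraMap_mk_of_liesOver, Ideal.Quotient.eq, mem_centre hW.ge]
    rfl
  have h1 : (Ideal.Quotient.mk (centre V W) b₀) ^ q =
      algebraMap (V ⧸ maximalIdeal V) (IC V L ⧸ centre V W) (Ideal.Quotient.mk _ ⟨c, hcV⟩) := by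
    rw [← map_pow, key]
    have : Cong W ((b₀ : L) ^ q) (y₀ ^ q) := Cong.pow hb₀ hy₀' q
    exact this.trans (Cong.symm hc)
  have h2 : Ideal.Quotient.mk (centre V W) b₀ ∉
      Set.range (algebraMap (V ⧸ maximalIdeal V) (IC V L ⧸ centre V W)) := by
    rintro ⟨d, hd⟩
    obtain ⟨d, rfl⟩ := Ideal.Quotient.mk_surjective d
    have h3 := (key b₀ d).mp hd.symm
    exact hn d ((Cong.symm h3).trans hb₀)
  have main : ∀ x ∈ Algebra.adjoin (V ⧸ maximalIdeal V) {Ideal.Quotient.mk (centre V W) b₀},
      ∃ t ∈ S, ∃ b' : IC V L, Ideal.Quotient.mk (centre V W) b' = x ∧ Cong W (b' : L) t := by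
    intro x hx
    induction hx using Algebra.adjoin_induction with
    | mem x hx =>
      rw [Set.mem_singleton_iff] at hx
      exact ⟨y₀, hS₀, b₀, hx.symm, hb₀⟩
    | algebraMap r =>
      obtain ⟨d, rfl⟩ := Ideal.Quotient.mk_surjective r
      obtain ⟨t, ht, hdt⟩ := hS d d.2
      exact ⟨t, ht, algebraMap V (IC V L) d,
        (Ideal.Quotient.algebraMap_mk_of_liesOver _ _ _).symm, hdt⟩
    | add x y _ _ hx hy =>
      obtain ⟨t, ht, b', e, h⟩ := hx
      obtain ⟨t', ht', b'', e', h'⟩ := hy
      exact ⟨t + t', S.add_mem ht ht', b' + b'', by rw [map_add, e, e'], h.add h'⟩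
    | mul x y _ _ hx hy =>
      obtain ⟨t, ht, b', e, h⟩ := hx
      obtain ⟨t', ht', b'', e', h'⟩ := hy
      refine ⟨t * t', S.mul_mem ht ht', b' * b'', by rw [map_mul, e, e'], ?_⟩
      exact h.mul h' (Cong.le_one h.symm (halfVal_val_le_one hW b')) (halfVal_val_le_one hW b'')
  obtain ⟨t, ht, b', e, h⟩ := main _
    (mem_adjoin_of_finrank_eq q hq hfr _ _ h1 h2 (Ideal.Quotient.mk (centre V W) b))
  refine ⟨t, ht, ?_⟩
  have h3 : Cong W (b' : L) (b : L) := by
    rw [Ideal.Quotient.eq, mem_centre hW.ge] at e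
    exact e
  exact (h.symm.trans h3).trans hb

theorem dense_insep (hq : q.Prime) (hdeg : Module.finrank K L = q) (hV : IsUnif V s)
    (hqV : V.valuation (q : K) < 1) (hW : W.comap (algebraMap K L) = V)
    {y₀ : L} (hy₀ : y₀ ∈ W) {c : K} (hc : W.valuation (algebraMap K L c - y₀ ^ q) < 1)
    (hn : ∀ y' : K, ¬ W.valuation (algebraMap K L y' - y₀) < 1) (S : Subring L) (hS₀ : y₀ ∈ S)
    (hS : ∀ d ∈ V, ∃ t ∈ S, W.valuation (algebraMap K L d - t) < 1) {y : L} (hy : y ∈ W) :
    ∃ t ∈ S, W.valuation (t - y) < 1 := by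
  have hfin : FiniteDimensional K L := Module.finite_of_finrank_pos (by rw [hdeg]; exact hq.pos)
  have hd : IsDiscreteValuationRing V := hV.isDiscreteValuationRing
  have T := tab_insep hq hdeg hV hqV hW hy₀ hc hn
  exact dense_insep_aux hW hq hqV (T.inertia ()) hy₀ hc hn S hS₀ hS hy

end Steps

/-! ### Consumer forms, for a homomorphism of fields `φ : F₁ →+* F` (no `Algebra` instance).
The norm map `(φ : F₁ →* F).comp (letI := φ.toAlgebra; Algebra.norm F₁)` is definitionally
`Fermat.Agent.S36.embNorm φ`. -/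
section Hom

variable {F₁ F : Type*} [Field F₁] [Field F]

/-- `W` is **radicial** over `U` along `φ` (`N` = embedding ∘ norm, degree `q`): `W` is the only
valuation subring above `U`, `W (N y) = W y ^ q`, and `N y ≡ y ^ q` modulo `𝔪_W` for units `y`. -/
structure IsRad (q : ℕ) (φ : F₁ →+* F) (N : F →* F) (U : ValuationSubring F₁)
    (W : ValuationSubring F) : Prop where
  lies : W.comap φ = U
  unique : ∀ W' : ValuationSubring F, W'.comap φ = U → W' = W
  ord : ∀ y : F, W.valuation (N y) = W.valuation y ^ q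
  res : ∀ y : F, W.valuation y = 1 → W.valuation (N y - y ^ q) < 1

variable [CharZero F₁] (φ : F₁ →+* F) {q : ℕ} {U : ValuationSubring F₁} {W : ValuationSubring F}
  {s : F₁}

/-- **(INSEP)** `e = 1`, `f = q` purely inseparable. -/
theorem insep_isRad (hq : q.Prime) (hdeg : (letI := φ.toAlgebra; Module.finrank F₁ F) = q)
    (hU : IsUnif U s) (hqU : U.valuation (q : F₁) < 1) (hW : W.comap φ = U)
    {y₀ : F} (hy₀ : y₀ ∈ W) {c : F₁} (hc : W.valuation (φ c - y₀ ^ q) < 1)
    (hn : ∀ y' : F₁, ¬ W.valuation (φ y' - y₀) < 1) :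
    IsRad q φ ((φ : F₁ →* F).comp (letI := φ.toAlgebra; Algebra.norm F₁)) U W := by
  letI := φ.toAlgebra
  have hfin : FiniteDimensional F₁ F := Module.finite_of_finrank_pos (by rw [hdeg]; exact hq.pos)
  have hd : IsDiscreteValuationRing U := hU.isDiscreteValuationRing
  have T := tab_insep hq hdeg hU hqU hW hy₀ hc hn
  obtain ⟨h1, h2, h3⟩ := rad_of_tab hq hdeg hU hqU T (Or.inr rfl) (mul_one q)
    (z := algebraMap F₁ F s) (pow_one _)
    (fun y hy => exists_cong_pow hW hq hqU (T.inertia ()) hy₀ hc hn hy)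
  exact ⟨hW, h1, h2, h3⟩

/-- **(INSEP)** the uniformiser of `U` is a uniformiser of `W`. -/
theorem insep_isUnif (hq : q.Prime) (hdeg : (letI := φ.toAlgebra; Module.finrank F₁ F) = q)
    (hU : IsUnif U s) (hqU : U.valuation (q : F₁) < 1) (hW : W.comap φ = U)
    {y₀ : F} (hy₀ : y₀ ∈ W) {c : F₁} (hc : W.valuation (φ c - y₀ ^ q) < 1)
    (hn : ∀ y' : F₁, ¬ W.valuation (φ y' - y₀) < 1) : IsUnif W (φ s) := by
  letI := φ.toAlgebra
  have hfin : FiniteDimensional F₁ F := Module.finite_of_finrank_pos (by rw [hdeg]; exact hq.pos)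
  exact isUnif_of_tab hU (tab_insep hq hdeg hU hqU hW hy₀ hc hn) (z := algebraMap F₁ F s)
    (pow_one _)

/-- **(INSEP)** the residue field of `W` is generated by `y₀` over the residue field of `U`:
a subring `S` of `F` containing `y₀` and dense over `φ U` is dense in `W`. -/
theorem insep_dense (hq : q.Prime) (hdeg : (letI := φ.toAlgebra; Module.finrank F₁ F) = q)
    (hU : IsUnif U s) (hqU : U.valuation (q : F₁) < 1) (hW : W.comap φ = U)
    {y₀ : F} (hy₀ : y₀ ∈ W) {c : F₁} (hc : W.valuation (φ c - y₀ ^ q) < 1)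
    (hn : ∀ y' : F₁, ¬ W.valuation (φ y' - y₀) < 1) (S : Subring F) (hS₀ : y₀ ∈ S)
    (hS : ∀ d ∈ U, ∃ t ∈ S, W.valuation (φ d - t) < 1) {y : F} (hy : y ∈ W) :
    ∃ t ∈ S, W.valuation (t - y) < 1 := by
  letI := φ.toAlgebra
  exact dense_insep hq hdeg hU hqU hW hy₀ hc hn S hS₀ hS hy

/-- **(INSEP)** the `q`-th power of every residue of `W` is a residue of `U`. -/
theorem insep_pow (hq : q.Prime) (hdeg : (letI := φ.toAlgebra; Module.finrank F₁ F) = q)
    (hU : IsUnif U s) (hqU : U.valuation (q : F₁) < 1) (hW : W.comap φ = U)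
    {y₀ : F} (hy₀ : y₀ ∈ W) {c : F₁} (hc : W.valuation (φ c - y₀ ^ q) < 1)
    (hn : ∀ y' : F₁, ¬ W.valuation (φ y' - y₀) < 1) {y : F} (hy : y ∈ W) :
    ∃ y' : F₁, W.valuation (φ y' - y ^ q) < 1 := by
  letI := φ.toAlgebra
  have hfin : FiniteDimensional F₁ F := Module.finite_of_finrank_pos (by rw [hdeg]; exact hq.pos)
  have hd : IsDiscreteValuationRing U := hU.isDiscreteValuationRing
  exact exists_cong_pow hW hq hqU ((tab_insep hq hdeg hU hqU hW hy₀ hc hn).inertia ()) hy₀ hc hn hy

/-- **(RAM)** density: `f = 1`. -/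
theorem ram_dense (hq : q.Prime) (hdeg : (letI := φ.toAlgebra; Module.finrank F₁ F) = q)
    (hU : IsUnif U s) (hW : W.comap φ = U) {z : F}
    (hz : W.valuation z ^ q = W.valuation (φ s)) {y : F} (hy : y ∈ W) :
    ∃ y' : F₁, W.valuation (φ y' - y) < 1 := by
  letI := φ.toAlgebra
  have hfin : FiniteDimensional F₁ F := Module.finite_of_finrank_pos (by rw [hdeg]; exact hq.pos)
  have hd : IsDiscreteValuationRing U := hU.isDiscreteValuationRing
  exact (tab_ram hq hdeg hU hW hz).dense () rfl hy

/-- **(RAM)** `e = q`, `f = 1`. -/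
theorem ram_isRad (hq : q.Prime) (hdeg : (letI := φ.toAlgebra; Module.finrank F₁ F) = q)
    (hU : IsUnif U s) (hqU : U.valuation (q : F₁) < 1) (hW : W.comap φ = U) {z : F}
    (hz : W.valuation z ^ q = W.valuation (φ s)) :
    IsRad q φ ((φ : F₁ →* F).comp (letI := φ.toAlgebra; Algebra.norm F₁)) U W := by
  letI := φ.toAlgebra
  have hfin : FiniteDimensional F₁ F := Module.finite_of_finrank_pos (by rw [hdeg]; exact hq.pos)
  have hd : IsDiscreteValuationRing U := hU.isDiscreteValuationRing
  have T := tab_ram hq hdeg hU hW hz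
  obtain ⟨h1, h2, h3⟩ := rad_of_tab hq hdeg hU hqU T (Or.inl rfl) (one_mul q) hz
    (fun y hy => by
      obtain ⟨c, hc⟩ := T.dense () rfl hy
      exact ⟨c, by rwa [pow_one]⟩)
  exact ⟨hW, h1, h2, h3⟩

/-- **(RAM)** `z` is a uniformiser of `W`. -/
theorem ram_isUnif (hq : q.Prime) (hdeg : (letI := φ.toAlgebra; Module.finrank F₁ F) = q)
    (hU : IsUnif U s) (hW : W.comap φ = U) {z : F}
    (hz : W.valuation z ^ q = W.valuation (φ s)) : IsUnif W z := by
  letI := φ.toAlgebra
  have hfin : FiniteDimensional F₁ F := Module.finite_of_finrank_pos (by rw [hdeg]; exact hq.pos)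
  exact isUnif_of_tab hU (tab_ram hq hdeg hU hW hz) hz

end Hom

end Fermat.Agent.S45.Tab
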