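/-
S45 / TAB (architect helper117).  LEAF T1: valuation rings extend along field embeddings.
PROOF.  `A := ` the image `U.toSubring.map φ`, a local subring of `F` (isomorphic to `U`).  Mathlib:
`LocalSubring.exists_le_valuationSubring` (`Mathlib/RingTheory/Valuation/LocalSubring.lean`) gives a valuation subring `W` of `F`
dominating `A`.  Then `U ≤ W.comap φ`, and if `a ∈ W.comap φ`, `a ∉ U`, then `a⁻¹` is a nonunit of `U`, so `φ a⁻¹` is a nonunit of `W`
(domination), contradiction with `φ a ∈ W`.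
-/
import Fermat.Agent.S45.Tab.Defs

set_option autoImplicit false

namespace Fermat.Agent.S45.Tab

theorem exists_ext {F₁ F : Type*} [Field F₁] [Field F] (φ : F₁ →+* F) (U : ValuationSubring F₁) :
    ∃ W : ValuationSubring F, W.comap φ = U := by
  obtain ⟨W, hle, hloc⟩ := (U.toLocalSubring.map φ).exists_le_valuationSubring
  have hUW : ∀ a ∈ U, φ a ∈ W := fun a ha => hle (Subring.mem_map.2 ⟨a, ha, rfl⟩)
  refine ⟨W, ?_⟩
  ext a
  rw [ValuationSubring.mem_comap]
  refine ⟨fun ha => ?_, hUW a⟩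
  by_contra hna
  have ha0 : a ≠ 0 := by rintro rfl; exact hna U.zero_mem
  have hinv : a⁻¹ ∈ U := (U.mem_or_inv_mem a).resolve_left hna
  -- the element `φ a⁻¹` of the image
  let b : (U.toLocalSubring.map φ).toSubring := ⟨φ a⁻¹, Subring.mem_map.2 ⟨a⁻¹, hinv, rfl⟩⟩
  have hb : IsUnit (Subring.inclusion hle b) :=
    isUnit_iff_exists_inv.mpr ⟨⟨φ a, ha⟩, Subtype.ext (by
      show φ a⁻¹ * φ a = 1
      rw [← map_mul, inv_mul_cancel₀ ha0, map_one])⟩
  obtain ⟨⟨c, hc⟩, hbc⟩ := isUnit_iff_exists_inv.mp (hloc.1 _ hb)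
  obtain ⟨c', hc', rfl⟩ := hc
  have h1 : φ a⁻¹ * φ c' = 1 := congrArg Subtype.val hbc
  rw [← map_mul, ← map_one φ] at h1
  have h2 : a⁻¹ * c' = 1 := φ.injective h1
  have h3 : c' = a := by
    field_simp at h2
    exact h2
  exact hna (h3 ▸ hc')

end Fermat.Agent.S45.Tab
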