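/-
S45 / TAB (architect helper117).  LEAF T9: vertical valuations and the two degeneracy maps.  (proofs: helper133)
-/
import Fermat.Agent.S45.Tab.Defs

set_option autoImplicit false

namespace Fermat.Agent.S45.Tab

variable {T : Tower} {q : ℕ} {O : ValuationSubring (T.F 0)} {x : T.F 0} {ψ : ℕ → ℕ → ℤ}

theorem vert_al (k : ℕ) (W : ValuationSubring (T.F (k + 1))) :
    W.comap (T.dA (k + 1)) = (W.comap (T.al k)).comap (T.dA k) := by
  ext y
  rfl

theorem comap_comm (k : ℕ) (W : ValuationSubring (T.F (k + 2))) :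
    (W.comap (T.al (k + 1))).comap (T.be k) = (W.comap (T.be (k + 1))).comap (T.al k) := by
  ext y
  simp only [ValuationSubring.mem_comap]
  rw [T.comm k y]

theorem vert_be (H : Hyp T q O x ψ) (k : ℕ) (W : ValuationSubring (T.F (k + 1))) :
    W.comap (T.dA (k + 1)) = O ↔ (W.comap (T.be k)).comap (T.dA k) = O := by
  induction k with
  | zero =>
    have h1 : W.comap (T.dA (0 + 1)) = W.comap (T.al 0) := by
      ext y
      rfl
    have h2 : (W.comap (T.be 0)).comap (T.dA 0) = W.comap (T.be 0) := by
      ext y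
      rfl
    rw [h1, h2]
    exact H.vert1 W
  | succ k ih =>
    rw [vert_al (k + 1) W, ih (W.comap (T.al (k + 1))), comap_comm k W,
      ← vert_al k (W.comap (T.be (k + 1)))]

end Fermat.Agent.S45.Tab
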