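/-
S45 / TAB (architect helper117).  LEAF T10: THE TYPE OF A VERTICAL VALUATION OF LEVEL `k + 2` (`k ≥ 1`).  (proofs: helper133)
-/
import Fermat.Agent.S45.Tab.Vert
import Fermat.Agent.S45.Tab.Ext

set_option autoImplicit false

namespace Fermat.Agent.S45.Tab

variable {T : Tower} {q : ℕ} {O : ValuationSubring (T.F 0)} {x : T.F 0} {ψ : ℕ → ℕ → ℤ}

/-- `W` is of type `F^(k+2-b) V^b`. -/
def HasType {k : ℕ} (W₁ : ℕ → ValuationSubring (T.F (k + 1))) (b : ℕ)
    (W : ValuationSubring (T.F (k + 2))) : Prop :=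
  W.comap (T.al (k + 1)) = W₁ (b - 1) ∧ W.comap (T.be (k + 1)) = W₁ (min b (k + 1))

variable {k : ℕ} {W₀ : ℕ → ValuationSubring (T.F k)} {ϖ₀ : ℕ → T.F k}
  {W₁ : ℕ → ValuationSubring (T.F (k + 1))} {ϖ₁ : ℕ → T.F (k + 1)}

theorem exists_type (H : Hyp T q O x ψ) (hk : 1 ≤ k) (P : Pair T q O x k W₀ ϖ₀ W₁ ϖ₁)
    (W : ValuationSubring (T.F (k + 2))) (hW : W.comap (T.dA (k + 2)) = O) :
    ∃ b ≤ k + 2, HasType W₁ b W := by
  have hA : (W.comap (T.al (k + 1))).comap (T.dA (k + 1)) = O := by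
    rw [← vert_al (k + 1) W]
    exact hW
  have hB : (W.comap (T.be (k + 1))).comap (T.dA (k + 1)) = O := (vert_be H (k + 1) W).1 hW
  obtain ⟨b', hb', e'⟩ := P.tab'.complete _ hA
  obtain ⟨b'', hb'', e''⟩ := P.tab'.complete _ hB
  have hc := comap_comm k W
  rw [e', e'', P.compat.resB b' hb', P.compat.resA b'' hb''] at hc
  have hm : min b' k = b'' - 1 := P.tab.inj _ (by omega) _ (by omega) hc
  have hex : ∃ b, b ≤ k + 2 ∧ b - 1 = b' ∧ min b (k + 1) = b'' := by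
    rcases Nat.eq_zero_or_pos b'' with h0 | h0
    · exact ⟨0, by omega, by omega, by omega⟩
    · rcases Nat.lt_or_ge k b' with h1 | h1
      · exact ⟨k + 2, by omega, by omega, by omega⟩
      · exact ⟨b'', by omega, by omega, by omega⟩
  obtain ⟨b, hb, h1, h2⟩ := hex
  exact ⟨b, hb, by rw [h1]; exact e', by rw [h2]; exact e''⟩

theorem type_inj (P : Pair T q O x k W₀ ϖ₀ W₁ ϖ₁) {W : ValuationSubring (T.F (k + 2))} {b b' : ℕ}
    (hb : b ≤ k + 2) (hb' : b' ≤ k + 2) (h : HasType W₁ b W) (h' : HasType W₁ b' W) : b = b' := by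
  have h1 : b - 1 = b' - 1 := P.tab'.inj _ (by omega) _ (by omega) (h.1.symm.trans h'.1)
  have h2 : min b (k + 1) = min b' (k + 1) :=
    P.tab'.inj _ (by omega) _ (by omega) (h.2.symm.trans h'.2)
  omega

/-- a valuation with a type is vertical -/
theorem vert_of_type (P : Pair T q O x k W₀ ϖ₀ W₁ ϖ₁) {W : ValuationSubring (T.F (k + 2))} {b : ℕ}
    (hb : b ≤ k + 2) (h : HasType W₁ b W) : W.comap (T.dA (k + 2)) = O := by
  rw [vert_al (k + 1) W, h.1]
  exact P.tab'.vert _ (by omega)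

/-- every type exists: extend `W₁ (b - 1)` along `al` if `k + 2 ≤ 2 b` (then `b - 1 ≥ 1` determines the type), `W₁ b` along `be` if
`2 b < k + 2` (then `b ≤ k` determines the type). -/
theorem exists_of_type (H : Hyp T q O x ψ) (hk : 1 ≤ k) (P : Pair T q O x k W₀ ϖ₀ W₁ ϖ₁) {b : ℕ}
    (hb : b ≤ k + 2) : ∃ W : ValuationSubring (T.F (k + 2)), HasType W₁ b W := by
  rcases Nat.lt_or_ge (2 * b) (k + 2) with h | h
  · obtain ⟨W, hW⟩ := exists_ext (T.be (k + 1)) (W₁ b)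
    have hv : W.comap (T.dA (k + 2)) = O := by
      rw [vert_be H (k + 1) W, hW]
      exact P.tab'.vert _ (by omega)
    obtain ⟨b₁, hb₁, ht⟩ := exists_type H hk P W hv
    have e : min b₁ (k + 1) = b := P.tab'.inj _ (by omega) _ (by omega) (ht.2.symm.trans hW)
    have : b₁ = b := by omega
    exact ⟨W, this ▸ ht⟩
  · obtain ⟨W, hW⟩ := exists_ext (T.al (k + 1)) (W₁ (b - 1))
    have hv : W.comap (T.dA (k + 2)) = O := by
      rw [vert_al (k + 1) W, hW]
      exact P.tab'.vert _ (by omega)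
    obtain ⟨b₁, hb₁, ht⟩ := exists_type H hk P W hv
    have e : b₁ - 1 = b - 1 := P.tab'.inj _ (by omega) _ (by omega) (ht.1.symm.trans hW)
    have : b₁ = b := by omega
    exact ⟨W, this ▸ ht⟩

end Fermat.Agent.S45.Tab
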