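/-
S45 / TAB (architect helper117).  LEAF T6: THE ALGEBRAIC IDENTITY BEHIND THE CASE `a = b` (Mathlib only).
`Aᵢ = Xᵢ^q - Yᵢ`, `Bᵢ = Xᵢ - Yᵢ^q`, `Ψᵢ = Ψ(Xᵢ, Yᵢ)`, `s = X₁ - X₂`, `z = Y₁ - Y₂`.   `Aᵢ Bᵢ = - q Ψᵢ`, so
`(B₁ - B₂) A₁ A₂ = - q (Ψ₁ A₂ - Ψ₂ A₁)`;  `B₁ - B₂ = s - (Y₁^q - Y₂^q) = s - z^q - q z c₁` (`exists_add_pow_prime_eq` for `Y₁ = Y₂ + z`:
`(Y₂ + z)^q = Y₂^q + z^q + q Y₂ z r`);  `Ψ₁ A₂ - Ψ₂ A₁ = (Ψ₁ - Ψ₂) A₂ + Ψ₂ (A₂ - A₁) ∈ (s, z)`: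
`X₁^a Y₁^b - X₂^a Y₂^b ∈ (s, z)` (`sub_dvd_pow_sub_pow`, or work in `R ⧸ Ideal.span {s, z}` and `Ideal.mem_span_pair`).
Proved by helper272.
-/
import Fermat.Agent.S45.Tab.Defs

set_option autoImplicit false

namespace Fermat.Agent.S45.Tab

theorem kron_identity {R : Type*} [CommRing R] {q : ℕ} (hq : q.Prime) {ψ : ℕ → ℕ → ℤ}
    {X₁ Y₁ X₂ Y₂ : R} (h₁ : Kron q ψ X₁ Y₁) (h₂ : Kron q ψ X₂ Y₂) :
    ∃ g c : R, (X₁ - X₂) * ((X₁ ^ q - Y₁) * (X₂ ^ q - Y₂) + (q : R) * g) =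
      (Y₁ - Y₂) ^ q * ((X₁ ^ q - Y₁) * (X₂ ^ q - Y₂)) + (q : R) * (Y₁ - Y₂) * c := by
  unfold Kron at h₁ h₂
  set Ψ₁ : R := ∑ a ∈ Finset.range (q + 1), ∑ b ∈ Finset.range (q + 1),
    (ψ a b : R) * X₁ ^ a * Y₁ ^ b with hΨ₁
  set Ψ₂ : R := ∑ a ∈ Finset.range (q + 1), ∑ b ∈ Finset.range (q + 1),
    (ψ a b : R) * X₂ ^ a * Y₂ ^ b with hΨ₂
  -- the binomial congruence
  obtain ⟨r, hr⟩ := exists_add_pow_prime_eq hq Y₂ (Y₁ - Y₂)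
  have hY : Y₁ ^ q = Y₂ ^ q + (Y₁ - Y₂) ^ q + (q : R) * (Y₂ * (Y₁ - Y₂) * r) := by
    have e : Y₂ + (Y₁ - Y₂) = Y₁ := by ring
    rw [e] at hr
    rw [hr]; ring
  -- membership in the ideal `(s, z)`
  have hmem : Ψ₁ * (X₂ ^ q - Y₂) - Ψ₂ * (X₁ ^ q - Y₁) ∈
      Ideal.span ({X₁ - X₂, Y₁ - Y₂} : Set R) := by
    rw [← Ideal.Quotient.eq_zero_iff_mem]
    have hX : Ideal.Quotient.mk (Ideal.span ({X₁ - X₂, Y₁ - Y₂} : Set R)) X₁ =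
        Ideal.Quotient.mk (Ideal.span ({X₁ - X₂, Y₁ - Y₂} : Set R)) X₂ := by
      rw [Ideal.Quotient.eq]
      exact Ideal.subset_span (by simp)
    have hY' : Ideal.Quotient.mk (Ideal.span ({X₁ - X₂, Y₁ - Y₂} : Set R)) Y₁ =
        Ideal.Quotient.mk (Ideal.span ({X₁ - X₂, Y₁ - Y₂} : Set R)) Y₂ := by
      rw [Ideal.Quotient.eq]
      exact Ideal.subset_span (by simp)
    rw [hΨ₁, hΨ₂]
    simp only [map_sub, map_mul, map_sum, map_pow, hX, hY', map_intCast]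
    ring
  obtain ⟨g, c, hgc⟩ := Ideal.mem_span_pair.1 hmem
  refine ⟨g, Y₂ * r * ((X₁ ^ q - Y₁) * (X₂ ^ q - Y₂)) - c, ?_⟩
  have e₁ : (X₁ ^ q - Y₁) * (X₁ - Y₁ ^ q) = -((q : R) * Ψ₁) := by linear_combination h₁
  have e₂ : (X₂ ^ q - Y₂) * (X₂ - Y₂ ^ q) = -((q : R) * Ψ₂) := by linear_combination h₂
  rw [hY] at e₁
  linear_combination (X₂ ^ q - Y₂) * e₁ - (X₁ ^ q - Y₁) * e₂ + (q : R) * hgc

/-- Kronecker's relation is preserved by ring homomorphisms. -/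
theorem Kron.map {R S : Type*} [CommRing R] [CommRing S] (f : R →+* S) {q : ℕ} {ψ : ℕ → ℕ → ℤ}
    {X Y : R} (h : Kron q ψ X Y) : Kron q ψ (f X) (f Y) := by
  have := congrArg f h
  simpa only [Kron, map_add, map_mul, map_sub, map_pow, map_natCast, map_sum, map_intCast,
    map_zero] using this

end Fermat.Agent.S45.Tab
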