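/-
S45 / TAB (architect helper117).  LEAF T8: the elements `x_i` of the tower.
PROOFS.  `al_xs`: `if_pos` (definition of `xs`).  `be_xs`: induction on `k`; `i = k`: `if_neg`; `i < k = k' + 1`: `xs (k'+1) i = al k' (xs k' i)`, `T.comm`,
induction hypothesis, `al_xs`.  `dA_x`: induction.  `kron_last`: induction on `k` (`Kron.map (T.be _)`, `be_xs`), start `H.kronAB`
(`xs 1 0 = al 0 x`, `xs 1 1 = be 0 x`).  `kron_first`: induction (`Kron.map (T.al _)`, `al_xs`), start `H.kronBA`.
(proved by helper141)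
-/
import Fermat.Agent.S45.Tab.KronAlg

set_option autoImplicit false

namespace Fermat.Agent.S45.Tab

variable (T : Tower) (x : T.F 0)

theorem al_xs (k i : ℕ) (hi : i ≤ k) : T.al k (T.xs x k i) = T.xs x (k + 1) i := by
  rw [Tower.xs, if_pos hi]

theorem be_xs (k i : ℕ) (hi : i ≤ k) : T.be k (T.xs x k i) = T.xs x (k + 1) (i + 1) := by
  induction k generalizing i with
  | zero =>
    obtain rfl : i = 0 := by omega
    conv_rhs => rw [Tower.xs, if_neg (by omega)]
  | succ k ih =>
    rcases Nat.lt_or_ge i (k + 1) with h | h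
    · have h' : i ≤ k := by omega
      rw [← al_xs T x k i h', T.comm, ih i h', al_xs T x (k + 1) (i + 1) (by omega)]
    · obtain rfl : i = k + 1 := by omega
      conv_rhs => rw [Tower.xs, if_neg (by omega)]

theorem dA_x (k : ℕ) : T.dA k x = T.xs x k 0 := by
  induction k with
  | zero => rfl
  | succ k ih =>
    rw [Tower.dA, RingHom.comp_apply, ih, al_xs T x k 0 (Nat.zero_le _)]

variable {T x} {q : ℕ} {O : ValuationSubring (T.F 0)} {ψ : ℕ → ℕ → ℤ}

/-- `Φ(x_k, x_{k+1}) = 0` at level `k + 1`. -/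
theorem kron_last (H : Hyp T q O x ψ) (k : ℕ) :
    Kron q ψ (T.xs x (k + 1) k) (T.xs x (k + 1) (k + 1)) := by
  induction k with
  | zero =>
    have h0 : T.xs x 1 0 = T.al 0 x := (al_xs T x 0 0 le_rfl).symm
    have h1 : T.xs x 1 1 = T.be 0 x := (be_xs T x 0 0 le_rfl).symm
    rw [h0, h1]
    exact H.kronAB
  | succ k ih =>
    have := ih.map (T.be (k + 1))
    rwa [be_xs T x (k + 1) k (by omega), be_xs T x (k + 1) (k + 1) le_rfl] at this

/-- `Φ(x_1, x_0) = 0` at level `k + 1`. -/
theorem kron_first (H : Hyp T q O x ψ) (k : ℕ) :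
    Kron q ψ (T.xs x (k + 1) 1) (T.xs x (k + 1) 0) := by
  induction k with
  | zero =>
    have h0 : T.xs x 1 0 = T.al 0 x := (al_xs T x 0 0 le_rfl).symm
    have h1 : T.xs x 1 1 = T.be 0 x := (be_xs T x 0 0 le_rfl).symm
    rw [h0, h1]
    exact H.kronBA
  | succ k ih =>
    have := ih.map (T.al (k + 1))
    rwa [al_xs T x (k + 1) 1 (by omega), al_xs T x (k + 1) 0 (by omega)] at this

end Fermat.Agent.S45.Tab
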