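/-
S45 / TAB (architect helper117).  LEAF T12: the elements `x_i` on a valuation of level `k + 2` with a type.  (proofs: helper133)
-/
import Fermat.Agent.S45.Tab.Typ
import Fermat.Agent.S45.Tab.Xs
import Fermat.Agent.S45.Tab.Co

set_option autoImplicit false

namespace Fermat.Agent.S45.Tab

variable {T : Tower} {q : ℕ} {O : ValuationSubring (T.F 0)} {x : T.F 0} {k : ℕ}
  {W₁ : ℕ → ValuationSubring (T.F (k + 1))} {ϖ₁ : ℕ → T.F (k + 1)}
  {W : ValuationSubring (T.F (k + 2))} {b : ℕ}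

theorem HasType.xmem (D : Table T q O x (k + 1) W₁ ϖ₁) (hb : b ≤ k + 2) (h : HasType W₁ b W)
    {i : ℕ} (hi : i ≤ k + 2) : T.xs x (k + 2) i ∈ W := by
  rcases Nat.lt_or_ge i (k + 2) with h1 | h1
  · rw [← al_xs T x (k + 1) i (by omega), co_mem_iff h.1]
    exact D.xmem _ (by omega) _ (by omega)
  · have e : i = k + 1 + 1 := by omega
    rw [e, ← be_xs T x (k + 1) (k + 1) le_rfl, co_mem_iff h.2]
    exact D.xmem _ (by omega) _ le_rfl

theorem HasType.last (D : Table T q O x (k + 1) W₁ ϖ₁) (hb : b ≤ k + 2) (h : HasType W₁ b W)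
    (h1 : 1 ≤ b) : W.valuation (T.xs x (k + 2) (k + 1) - T.xs x (k + 2) (k + 2) ^ q) < 1 := by
  have h2 := D.last (min b (k + 1)) (by omega) (by omega)
  rw [← co_lt_one_iff h.2, map_sub, map_pow, be_xs T x (k + 1) (k + 1) le_rfl,
    be_xs T x (k + 1) (k + 1 - 1) (by omega)] at h2
  exact h2

theorem HasType.first (D : Table T q O x (k + 1) W₁ ϖ₁) (h : HasType W₁ b W) (h1 : b < k + 2) :
    W.valuation (T.xs x (k + 2) 1 - T.xs x (k + 2) 0 ^ q) < 1 := by
  have h2 := D.first (b - 1) (by omega)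
  rw [← co_lt_one_iff h.1, map_sub, map_pow, al_xs T x (k + 1) 1 (by omega),
    al_xs T x (k + 1) 0 (by omega)] at h2
  exact h2

end Fermat.Agent.S45.Tab
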