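/-
S45 / TAB (architect helper117).  LEAF T4: THE PURELY INSEPARABLE STEP (`e = 1`, `f = q`).
`φ : F₁ → F` of degree `q`, `U` a discrete valuation ring of `F₁` of residue characteristic `q`, `W` an extension of `U`, `y₀ ∈ W` with
`y₀ ^ q ≡ φ c` and `y₀ ≢ φ y'` for all `y'`.
PROOF (helper167): wiring of helper87's `S45/Tab/Step.lean` (`insep_isRad`, `insep_isUnif`, `insep_pow`).  The leaves T2, T3
(`UnifTab.lean`, `OrdTab.lean`) are NOT needed (and `UnifTab.isUnif_of_tab` has the same name as a lemma of `Step.lean`).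
-/
import Fermat.Agent.S45.Tab.Defs
import Fermat.Agent.S45.Tab.Step

set_option autoImplicit false

namespace Fermat.Agent.S45.Tab

open Fermat.Agent.S18 Fermat.Agent.S36 Fermat.Agent.S36.BP.BuildHalf Fermat.Agent.S45.K

/-- the output of the purely inseparable step -/
structure InsepOut {F₁ F : Type*} [Field F₁] [Field F] (φ : F₁ →+* F) (q : ℕ)
    (U : ValuationSubring F₁) (ϖ : F₁) (W : ValuationSubring F) : Prop where
  rad : Rad q (embNorm φ) W
  unif : IsUnif W (φ ϖ)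
  unique : ∀ W' : ValuationSubring F, W'.comap φ = U → W' = W
  pow : ∀ y ∈ W, ∃ y' : F₁, W.valuation (φ y' - y ^ q) < 1

theorem insepOut {F₁ F : Type*} [Field F₁] [Field F] [CharZero F₁] (φ : F₁ →+* F) {q : ℕ}
    (hq : q.Prime) (hdeg : (letI := φ.toAlgebra; Module.finrank F₁ F) = q)
    {U : ValuationSubring F₁} {ϖ : F₁} (hU : IsUnif U ϖ) (hqU : U.valuation (q : F₁) < 1)
    {W : ValuationSubring F} (hW : W.comap φ = U)
    {y₀ : F} (hy₀ : y₀ ∈ W) {c : F₁} (hc : W.valuation (φ c - y₀ ^ q) < 1)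
    (hn : ∀ y' : F₁, ¬ W.valuation (φ y' - y₀) < 1) : InsepOut φ q U ϖ W := by
  have R := insep_isRad φ hq hdeg hU hqU hW hy₀ hc hn
  exact ⟨⟨R.ord, R.res⟩, insep_isUnif φ hq hdeg hU hqU hW hy₀ hc hn, R.unique,
    fun y hy => insep_pow φ hq hdeg hU hqU hW hy₀ hc hn hy⟩

end Fermat.Agent.S45.Tab
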