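/-
S45 / TAB (architect helper117).  LEAF T13: THE TYPES `F^a V^b`, `b > a`, OF LEVEL `k + 2`  (purely inseparable for `al`).
PROOF.  `U := W₁ (b - 1)` (`b - 1 ≤ k + 1`, `k + 1 ≤ 2 (b - 1)`), `φ := al (k+1)`, `y₀ := xs (k+2) (k+2) ∈ W` (`HasType.xmem`), `c := xs (k+1) (k+1)`,
`φ c = xs (k+2) (k+1)` (`al_xs`), `hc` = `HasType.last`.
`hn`: if `W (φ y' - y₀) < 1` then `φ y' ∈ W`, `y' ∈ U` (`co_mem_iff`), `W (φ (y' ^ q - c)) < 1` (`S36.BP.Cong.pow`, `Cong.trans`: `φ y' ^ q ≡ y₀ ^ q ≡ φ c`), so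
`U (y' ^ q - c) < 1` (`co_lt_one_iff`): contradiction with `D.hi (b - 1)`.
`insepOut φ H.prime (H.degA (k+1) _) (D.unif (b-1) _) (D.q_lt_one _) h.1 ...`.
`hi`: if `W (y ^ q - y₀) < 1`, take `y'` from `.pow y`: `W (φ y' - y₀) < 1`, contradiction with `hn`.
`ram`: `D.ram (b - 1)`, `co_pow_eq`, `map_natCast`, `q ^ (k+1) ≤ q ^ (k+2)`.
-/
import Fermat.Agent.S45.Tab.TypAux
import Fermat.Agent.S45.Tab.Insep
import Fermat.Agent.S36.BP.Cong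

set_option autoImplicit false

namespace Fermat.Agent.S45.Tab

open Fermat.Agent.S18 Fermat.Agent.S36 Fermat.Agent.S45.K

variable {T : Tower} {q : ℕ} {O : ValuationSubring (T.F 0)} {x : T.F 0} {ψ : ℕ → ℕ → ℤ} {k : ℕ}
  {W₁ : ℕ → ValuationSubring (T.F (k + 1))} {ϖ₁ : ℕ → T.F (k + 1)}
  {W : ValuationSubring (T.F (k + 2))} {b : ℕ}

theorem stepHi (H : Hyp T q O x ψ) (D : Table T q O x (k + 1) W₁ ϖ₁) (hb : b ≤ k + 2)
    (h2 : k + 2 < 2 * b) (h : HasType W₁ b W) :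
    InsepOut (T.al (k + 1)) q (W₁ (b - 1)) (ϖ₁ (b - 1)) W ∧
      (∀ y ∈ W, ¬ W.valuation (y ^ q - T.xs x (k + 2) (k + 2)) < 1) ∧
      ∃ e : ℕ, 1 ≤ e ∧ e ≤ q ^ (k + 2) ∧
        W.valuation (T.al (k + 1) (ϖ₁ (b - 1))) ^ e = W.valuation (q : T.F (k + 2)) := by
  have hb1 : b - 1 ≤ k + 1 := by omega
  have hhi : k + 1 ≤ 2 * (b - 1) := by omega
  have hy₀ : T.xs x (k + 2) (k + 2) ∈ W := h.xmem D hb le_rfl
  have hφc : T.al (k + 1) (T.xs x (k + 1) (k + 1)) = T.xs x (k + 2) (k + 1) :=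
    al_xs T x (k + 1) (k + 1) le_rfl
  have hc : W.valuation (T.al (k + 1) (T.xs x (k + 1) (k + 1)) - T.xs x (k + 2) (k + 2) ^ q) < 1 := by
    rw [hφc]
    exact h.last D hb (by omega)
  have hn : ∀ y' : T.F (k + 1), ¬ W.valuation (T.al (k + 1) y' - T.xs x (k + 2) (k + 2)) < 1 := by
    intro y' hy'
    have hy₀1 : W.valuation (T.xs x (k + 2) (k + 2)) ≤ 1 := (W.valuation_le_one_iff _).2 hy₀
    have h1 : BP.Cong W (T.al (k + 1) y') (T.xs x (k + 2) (k + 2)) := hy'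
    have hmem : T.al (k + 1) y' ∈ W := (W.valuation_le_one_iff _).1 (h1.le_one hy₀1)
    have hy'U : y' ∈ W₁ (b - 1) := (co_mem_iff h.1 y').1 hmem
    have h3 : BP.Cong W (T.al (k + 1) y' ^ q) (T.al (k + 1) (T.xs x (k + 1) (k + 1))) :=
      (h1.pow hy₀1 q).trans (BP.Cong.symm hc)
    have h4 : W.valuation (T.al (k + 1) (y' ^ q - T.xs x (k + 1) (k + 1))) < 1 := by
      rw [map_sub, map_pow]
      exact h3
    exact D.hi (b - 1) hb1 hhi y' hy'U ((co_lt_one_iff h.1 _).1 h4)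
  have hI : InsepOut (T.al (k + 1)) q (W₁ (b - 1)) (ϖ₁ (b - 1)) W :=
    insepOut (T.al (k + 1)) H.prime (H.degA (k + 1) (by omega)) (D.unif (b - 1) hb1)
      (D.q_lt_one hb1) h.1 hy₀ hc hn
  refine ⟨hI, ?_, ?_⟩
  · intro y hy hlt
    obtain ⟨y', hy'⟩ := hI.pow y hy
    exact hn y' (BP.Cong.trans (V := W) hy' hlt)
  · obtain ⟨e, he1, he2, he⟩ := D.ram (b - 1) hb1
    refine ⟨e, he1, he2.trans (Nat.pow_le_pow_right H.prime.pos (by omega)), ?_⟩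
    have := co_pow_eq h.1 he
    rwa [map_natCast] at this

end Fermat.Agent.S45.Tab
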