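/-
S45 / TAB (architect helper117).  LEAF T7: THE VALUATIVE CONSEQUENCE (case `a = b`).
`s = X₁ - X₂`, `z = Y₁ - Y₂`, `u = A₁ A₂` a unit of `W`.  Apply `kron_identity` IN THE RING `W` (elements `⟨Xᵢ, _⟩ : W`; `Kron` descends to `W` because
`W → F` is injective: `Subtype.ext`/`Subtype.val_injective`, `push_cast`), or in `F` after checking that `g`, `c` can be taken in `W`:
`s (u + q g) = z^q u + q z c`, `g, c ∈ W`.  `W q < 1`, so `u + q g` is a unit.
* `W z < 1`: otherwise the right hand side is a unit, the left hand side is not.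
* `W (q z c) ≤ W q * W z < W q ≤ W s`, so `W (z ^ q) = W (z^q u) = W s` (`Valuation.map_add_eq_of_lt_...`/`Valuation.map_sub_eq_of_lt_...`).
* `z^q / s - 1 = (q g) / u - q z c / (s u)`, both terms of valuation `< 1`.
Proved by helper272.
-/
import Fermat.Agent.S45.Tab.KronAlg

set_option autoImplicit false

namespace Fermat.Agent.S45.Tab

/-- Kronecker's relation descends to a valuation subring. -/
theorem Kron.descend {F : Type*} [Field F] (W : ValuationSubring F) {q : ℕ} {ψ : ℕ → ℕ → ℤ}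
    {X Y : F} (hX : X ∈ W) (hY : Y ∈ W) (h : Kron q ψ X Y) :
    Kron q ψ (⟨X, hX⟩ : W) (⟨Y, hY⟩ : W) := by
  unfold Kron at h ⊢
  apply W.subtype_injective
  simp only [map_add, map_mul, map_sub, map_pow, map_natCast, map_sum, map_intCast, map_zero]
  exact h

theorem kron_val {F : Type*} [Field F] (W : ValuationSubring F) {q : ℕ} (hq : q.Prime)
    {ψ : ℕ → ℕ → ℤ} {X₁ Y₁ X₂ Y₂ : F} (hX₁ : X₁ ∈ W) (hY₁ : Y₁ ∈ W) (hX₂ : X₂ ∈ W) (hY₂ : Y₂ ∈ W)
    (h₁ : Kron q ψ X₁ Y₁) (h₂ : Kron q ψ X₂ Y₂)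
    (hA₁ : W.valuation (X₁ ^ q - Y₁) = 1) (hA₂ : W.valuation (X₂ ^ q - Y₂) = 1)
    (hs : W.valuation (X₁ - X₂) < 1) (hq0 : (q : F) ≠ 0)
    (hqs : W.valuation (q : F) ≤ W.valuation (X₁ - X₂)) :
    W.valuation (Y₁ - Y₂) < 1 ∧ W.valuation (Y₁ - Y₂) ^ q = W.valuation (X₁ - X₂) ∧
      W.valuation ((Y₁ - Y₂) ^ q / (X₁ - X₂) - 1) < 1 := by
  obtain ⟨g', c', hgc'⟩ := kron_identity hq (Kron.descend W hX₁ hY₁ h₁) (Kron.descend W hX₂ hY₂ h₂)
  have hgc := congrArg W.subtype hgc'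
  simp only [map_add, map_mul, map_sub, map_pow, map_natCast] at hgc
  obtain ⟨g, hg, rfl⟩ : ∃ g : F, W.valuation g ≤ 1 ∧ W.subtype g' = g :=
    ⟨_, W.valuation_le_one g', rfl⟩
  obtain ⟨c, hc, rfl⟩ : ∃ c : F, W.valuation c ≤ 1 ∧ W.subtype c' = c :=
    ⟨_, W.valuation_le_one c', rfl⟩
  change (X₁ - X₂) * ((X₁ ^ q - Y₁) * (X₂ ^ q - Y₂) + (q : F) * W.subtype g') =
    (Y₁ - Y₂) ^ q * ((X₁ ^ q - Y₁) * (X₂ ^ q - Y₂)) + (q : F) * (Y₁ - Y₂) * W.subtype c' at hgc
  generalize W.subtype g' = g at hg hgc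
  generalize W.subtype c' = c at hc hgc
  set v := W.valuation with hv
  set s : F := X₁ - X₂ with hsdef
  set z : F := Y₁ - Y₂ with hzdef
  set u : F := (X₁ ^ q - Y₁) * (X₂ ^ q - Y₂) with hudef
  have hu : v u = 1 := by rw [hudef, map_mul, hA₁, hA₂, one_mul]
  have hu0 : u ≠ 0 := by
    intro h0; rw [h0, map_zero] at hu; exact zero_ne_one hu
  have hvq0 : v (q : F) ≠ 0 := (Valuation.ne_zero_iff _).2 hq0
  have hvq : v (q : F) < 1 := lt_of_le_of_lt hqs hs
  have hs0 : s ≠ 0 := by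
    intro h0
    rw [h0, map_zero] at hqs
    exact hvq0 (le_antisymm hqs zero_le')
  have hvs0 : v s ≠ 0 := (Valuation.ne_zero_iff _).2 hs0
  have hz1 : v z ≤ 1 := (W.valuation_le_one_iff z).2 (W.sub_mem hY₁ hY₂)
  have hqg : v ((q : F) * g) < 1 := by
    rw [map_mul]
    exact lt_of_le_of_lt (mul_le_of_le_one_right' hg) hvq
  have hug : v (u + (q : F) * g) = 1 := by
    rw [Valuation.map_add_eq_of_lt_left _ (by rw [hu]; exact hqg), hu]
  have hL : v (s * (u + (q : F) * g)) = v s := by rw [map_mul, hug, mul_one]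
  have hqzc : v ((q : F) * z * c) ≤ v (q : F) * v z := by
    rw [map_mul, map_mul]
    exact mul_le_of_le_one_right' hc
  -- `W z < 1`
  have hz : v z < 1 := by
    refine lt_of_le_of_ne hz1 fun h1 => ?_
    have hR : v (z ^ q * u + (q : F) * z * c) = 1 := by
      have e1 : v (z ^ q * u) = 1 := by rw [map_mul, map_pow, h1, one_pow, hu, one_mul]
      rw [Valuation.map_add_eq_of_lt_left _ (by
        rw [e1]; exact lt_of_le_of_lt hqzc (by rw [h1, mul_one]; exact hvq)), e1]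
    rw [← hgc, hL] at hR
    exact (ne_of_lt hs) hR
  have hqz : v (q : F) * v z < v (q : F) := by
    have := mul_lt_mul_of_pos_left hz (zero_lt_iff.2 hvq0)
    rwa [mul_one] at this
  have hqzc' : v ((q : F) * z * c) < v s := lt_of_le_of_lt hqzc (lt_of_lt_of_le hqz hqs)
  -- `W z ^ q = W s`
  have hzq : v z ^ q = v s := by
    have e : z ^ q * u = s * (u + (q : F) * g) - (q : F) * z * c := by rw [hgc]; ring
    have e2 : v (z ^ q * u) = v s := by
      rw [e, Valuation.map_sub_eq_of_lt_left _ (by rw [hL]; exact hqzc'), hL]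
    rwa [map_mul, map_pow, hu, mul_one] at e2
  refine ⟨hz, hzq, ?_⟩
  have e3 : z ^ q / s - 1 = (q : F) * g / u - (q : F) * z * c / (s * u) := by
    field_simp
    linear_combination -hgc
  rw [e3]
  refine Valuation.map_sub_lt _ ?_ ?_
  · rw [map_div₀, hu, div_one]; exact hqg
  · rw [map_div₀, map_mul v s u, hu, mul_one]
    exact (div_lt_one₀ (zero_lt_iff.2 hvs0)).2 hqzc'

end Fermat.Agent.S45.Tab
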