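/-
S45 / TAB (architect helper117).  LEAF T5: THE TOTALLY RAMIFIED STEP (`e = q`, `f = 1`).
`φ : F₁ → F` of degree `q`, `U` a discrete valuation ring of `F₁` with uniformiser `ϖ`, residue characteristic `q`, `W` an extension of `U`,
`z ∈ F` with `W z ^ q = W (φ ϖ)`.
PROOF (helper167): wiring of helper87's `S45/Tab/Step.lean` (`ram_isRad`, `ram_isUnif`, `ram_dense`).  The leaves T2, T3 are NOT needed.
-/
import Fermat.Agent.S45.Tab.Defs
import Fermat.Agent.S45.Tab.Step

set_option autoImplicit false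

namespace Fermat.Agent.S45.Tab

open Fermat.Agent.S18 Fermat.Agent.S36 Fermat.Agent.S36.BP.BuildHalf Fermat.Agent.S45.K

/-- the output of the totally ramified step -/
structure RamOut {F₁ F : Type*} [Field F₁] [Field F] (φ : F₁ →+* F) (q : ℕ)
    (U : ValuationSubring F₁) (z : F) (W : ValuationSubring F) : Prop where
  rad : Rad q (embNorm φ) W
  unif : IsUnif W z
  unique : ∀ W' : ValuationSubring F, W'.comap φ = U → W' = W
  dense : ∀ y ∈ W, ∃ y' : F₁, W.valuation (φ y' - y) < 1

theorem ramOut {F₁ F : Type*} [Field F₁] [Field F] [CharZero F₁] (φ : F₁ →+* F) {q : ℕ}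
    (hq : q.Prime) (hdeg : (letI := φ.toAlgebra; Module.finrank F₁ F) = q)
    {U : ValuationSubring F₁} {ϖ : F₁} (hU : IsUnif U ϖ) (hqU : U.valuation (q : F₁) < 1)
    {W : ValuationSubring F} (hW : W.comap φ = U)
    {z : F} (hz : W.valuation z ^ q = W.valuation (φ ϖ)) : RamOut φ q U z W := by
  have R := ram_isRad φ hq hdeg hU hqU hW hz
  exact ⟨⟨R.ord, R.res⟩, ram_isUnif φ hq hdeg hU hW hz, R.unique,
    fun y hy => ram_dense φ hq hdeg hU hW hz hy⟩

end Fermat.Agent.S45.Tab
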