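/-
S45 / TAB (architect helper117).  LEAF T15: THE TYPE `F^b V^b` OF LEVEL `k + 2 = 2 b`  (totally ramified for `al`).
NOTATION.  `X₁ = xs (k+2) (k+1)`, `Y₁ = xs (k+2) (k+2)`, `X₂ = xs (k+2) 1`, `Y₂ = xs (k+2) 0`, `s = X₁ - X₂`, `z = Y₁ - Y₂`, `U := W₁ (b - 1)`, `φ := al (k+1)`.
PROOF.  `b ≥ 2`, `k = 2 (b - 1)`, `b - 1 ≥ 1`.
(1) `ϖ₁ (b - 1) = be k (ϖ₀ (b - 1))` (`P.compat.unifB`, `2 (b-1) < k + 1`) `= be k (xs k k - xs k 0)` (`P.tab.unif_mid`) `= xs (k+1) (k+1) - xs (k+1) 1` (`be_xs`),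
    so `φ (ϖ₁ (b-1)) = s` (`al_xs`).   `W s < 1`, `W q ≤ W s` (`unif_lt_one`, `Table.q_le_unif`, `co_lt_one_iff`, `co_le_iff`, `map_natCast`).
(2) `Kron q ψ X₁ Y₁` = `kron_last H (k+1)`, `Kron q ψ X₂ Y₂` = `kron_first H (k+1)`; all four elements are in `W` (`HasType.xmem`).
(3) `W (X₁ ^ q - Y₁) = 1`: it is in `W`; if `< 1`: `X₁ = be (xs (k+1) k)`, `Y₁ = be (xs (k+1) (k+1))`, so `W₁ b (xs (k+1) k ^ q - xs (k+1) (k+1)) < 1`
    (`h.2`, `min b (k+1) = b`, `co_lt_one_iff`): contradiction with `P.tab'.hi b` (`k + 1 ≤ 2 b`).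
    `W (X₂ ^ q - Y₂) = 1`: `X₂ = al (xs (k+1) 1)`, `Y₂ = al (xs (k+1) 0)`: contradiction with `P.tab'.lo (b - 1)`.
(4) `kron_val`: `W z < 1`, `W z ^ q = W s`, `W (z ^ q / s - 1) < 1`.   `ramOut φ H.prime (H.degA (k+1) _) (P.tab'.unif (b-1) _) (q_lt_one) h.1 (hz)`.
(5) `lo`: `y ∈ W`, `W (y ^ q - Y₂) < 1`; `.dense y`: `φ y' ≡ y`, `y' ∈ U`, `U (y' ^ q - xs (k+1) 0) < 1`: contradiction with `P.tab'.lo (b-1)`.   `hi`: `Y₁ ≡ Y₂`.
(6) `ram`: `P.tab'.ram (b-1)` gives `e`; take `q * e`: `W z ^ (q e) = W s ^ e = W q`; `q * e ≤ q ^ (k+2)`.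
-/
import Fermat.Agent.S45.Tab.TypAux
import Fermat.Agent.S45.Tab.Ram
import Fermat.Agent.S45.Tab.KronVal
import Fermat.Agent.S36.BP.Cong

set_option autoImplicit false

namespace Fermat.Agent.S45.Tab

open Fermat.Agent.S18 Fermat.Agent.S36 Fermat.Agent.S45.K

variable {T : Tower} {q : ℕ} {O : ValuationSubring (T.F 0)} {x : T.F 0} {ψ : ℕ → ℕ → ℤ} {k : ℕ}
  {W₀ : ℕ → ValuationSubring (T.F k)} {ϖ₀ : ℕ → T.F k}
  {W₁ : ℕ → ValuationSubring (T.F (k + 1))} {ϖ₁ : ℕ → T.F (k + 1)}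
  {W : ValuationSubring (T.F (k + 2))} {b : ℕ}

theorem stepMid (H : Hyp T q O x ψ) (hk : 1 ≤ k) (P : Pair T q O x k W₀ ϖ₀ W₁ ϖ₁)
    (h2 : k + 2 = 2 * b) (h : HasType W₁ b W) :
    RamOut (T.al (k + 1)) q (W₁ (b - 1)) (T.xs x (k + 2) (k + 2) - T.xs x (k + 2) 0) W ∧
      (∀ y ∈ W, ¬ W.valuation (y ^ q - T.xs x (k + 2) (k + 2)) < 1) ∧
      (∀ y ∈ W, ¬ W.valuation (y ^ q - T.xs x (k + 2) 0) < 1) ∧
      (∃ e : ℕ, 1 ≤ e ∧ e ≤ q ^ (k + 2) ∧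
        W.valuation (T.xs x (k + 2) (k + 2) - T.xs x (k + 2) 0) ^ e =
          W.valuation (q : T.F (k + 2))) ∧
      W.valuation ((T.xs x (k + 2) (k + 2) - T.xs x (k + 2) 0) ^ q /
        T.al (k + 1) (ϖ₁ (b - 1)) - 1) < 1 := by
  have hb : b ≤ k + 2 := by omega
  have hb1 : b - 1 ≤ k + 1 := by omega
  have hbk : b ≤ k + 1 := by omega
  have D := P.tab'
  have hB : W.comap (T.be (k + 1)) = W₁ b := by
    have := h.2
    rwa [min_eq_left hbk] at this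
  -- (1) the uniformiser
  have hϖ : T.al (k + 1) (ϖ₁ (b - 1)) = T.xs x (k + 2) (k + 1) - T.xs x (k + 2) 1 := by
    rw [P.compat.unifB (b - 1) hb1 (by omega), P.tab.unif_mid (b - 1) (by omega) (by omega),
      map_sub, be_xs T x k k le_rfl, be_xs T x k 0 (Nat.zero_le _), map_sub,
      al_xs T x (k + 1) (k + 1) le_rfl, al_xs T x (k + 1) (0 + 1) (by omega)]
  have hs : W.valuation (T.xs x (k + 2) (k + 1) - T.xs x (k + 2) 1) < 1 := by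
    rw [← hϖ]
    exact (co_lt_one_iff h.1 _).2 (unif_lt_one (D.unif (b - 1) hb1))
  have hqs : W.valuation (q : T.F (k + 2)) ≤
      W.valuation (T.xs x (k + 2) (k + 1) - T.xs x (k + 2) 1) := by
    rw [← hϖ]
    have := (co_le_iff h.1 (q : T.F (k + 1)) (ϖ₁ (b - 1))).2 (D.q_le_unif hb1)
    rwa [map_natCast] at this
  -- (2)
  have hK₁ := kron_last H (k + 1)
  have hK₂ := kron_first H (k + 1)
  have hX₁ : T.xs x (k + 2) (k + 1) ∈ W := h.xmem D hb (by omega)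
  have hY₁ : T.xs x (k + 2) (k + 2) ∈ W := h.xmem D hb le_rfl
  have hX₂ : T.xs x (k + 2) 1 ∈ W := h.xmem D hb (by omega)
  have hY₂ : T.xs x (k + 2) 0 ∈ W := h.xmem D hb (Nat.zero_le _)
  -- (3)
  have hA₁ : W.valuation (T.xs x (k + 2) (k + 1) ^ q - T.xs x (k + 2) (k + 2)) = 1 := by
    refine le_antisymm ((W.valuation_le_one_iff _).2 (W.sub_mem (W.pow_mem hX₁ q) hY₁))
      (not_lt.1 fun hlt => ?_)
    rw [← be_xs T x (k + 1) k (by omega), ← be_xs T x (k + 1) (k + 1) le_rfl, ← map_pow,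
      ← map_sub] at hlt
    exact D.hi b hbk (by omega) _ (D.xmem b hbk k (by omega)) ((co_lt_one_iff hB _).1 hlt)
  have hA₂ : W.valuation (T.xs x (k + 2) 1 ^ q - T.xs x (k + 2) 0) = 1 := by
    refine le_antisymm ((W.valuation_le_one_iff _).2 (W.sub_mem (W.pow_mem hX₂ q) hY₂))
      (not_lt.1 fun hlt => ?_)
    rw [← al_xs T x (k + 1) 1 (by omega), ← al_xs T x (k + 1) 0 (Nat.zero_le _), ← map_pow,
      ← map_sub] at hlt
    exact D.lo (b - 1) hb1 (by omega) _ (D.xmem (b - 1) hb1 1 (by omega))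
      ((co_lt_one_iff h.1 _).1 hlt)
  -- (4)
  have hq0 : (q : T.F (k + 2)) ≠ 0 := Nat.cast_ne_zero.2 H.prime.ne_zero
  obtain ⟨hz1, hzq, hzs⟩ := kron_val W H.prime hX₁ hY₁ hX₂ hY₂ hK₁ hK₂ hA₁ hA₂ hs hq0 hqs
  have hR : RamOut (T.al (k + 1)) q (W₁ (b - 1)) (T.xs x (k + 2) (k + 2) - T.xs x (k + 2) 0) W :=
    ramOut (T.al (k + 1)) H.prime (H.degA (k + 1) (by omega)) (D.unif (b - 1) hb1)
      (D.q_lt_one hb1) h.1 (by rw [hϖ]; exact hzq)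
  -- (5)
  have hlo : ∀ y ∈ W, ¬ W.valuation (y ^ q - T.xs x (k + 2) 0) < 1 := by
    intro y hy hlt
    obtain ⟨y', hy'⟩ := hR.dense y hy
    have hy1 : W.valuation y ≤ 1 := (W.valuation_le_one_iff _).2 hy
    have h1 : BP.Cong W (T.al (k + 1) y') y := hy'
    have hmem : T.al (k + 1) y' ∈ W := (W.valuation_le_one_iff _).1 (h1.le_one hy1)
    have hy'U : y' ∈ W₁ (b - 1) := (co_mem_iff h.1 y').1 hmem
    have h3 : BP.Cong W (T.al (k + 1) y' ^ q) (T.xs x (k + 2) 0) := (h1.pow hy1 q).trans hlt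
    have h4 : W.valuation (T.al (k + 1) (y' ^ q - T.xs x (k + 1) 0)) < 1 := by
      rw [map_sub, map_pow, al_xs T x (k + 1) 0 (Nat.zero_le _)]
      exact h3
    exact D.lo (b - 1) hb1 (by omega) y' hy'U ((co_lt_one_iff h.1 _).1 h4)
  refine ⟨hR, ?_, hlo, ?_, ?_⟩
  · intro y hy hlt
    exact hlo y hy (BP.Cong.trans (V := W) hlt hz1)
  · obtain ⟨e, he1, he2, he⟩ := D.ram (b - 1) hb1
    refine ⟨q * e, Nat.mul_pos H.prime.pos he1, ?_, ?_⟩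
    · calc q * e ≤ q * q ^ (k + 1) := Nat.mul_le_mul_left q he2
        _ = q ^ (k + 2) := by rw [pow_succ q (k + 1), mul_comm]
    · have h5 := co_pow_eq h.1 he
      rw [map_natCast, hϖ] at h5
      rw [pow_mul, hzq, h5]
  · rw [hϖ]
    exact hzs

end Fermat.Agent.S45.Tab
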