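/-
S45 / TAB (design of helper117; this file: helper80).  ASSEMBLY OF THE INDUCTION STEP.
`Pair k` (tables of levels `k`, `k + 1` and their compatibility), `k ≥ 1`  ⟹  `Pair (k + 1)`, with the explicit uniformisers `nextUnif`,
together with the complete output of the three steps (`Steps`: radiciality, uniqueness, density, `q`-th powers).
`exists_tables`: all the levels at once, starting from `Pair 1`.
-/
import Fermat.Agent.S45.Tab.StepHi
import Fermat.Agent.S45.Tab.StepLo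
import Fermat.Agent.S45.Tab.StepMid

set_option autoImplicit false

noncomputable section

namespace Fermat.Agent.S45.Tab

open Fermat.Agent.S18 Fermat.Agent.S36 Fermat.Agent.S45.K

/-- the uniformisers of level `k + 2`. -/
def nextUnif (T : Tower) (x : T.F 0) (k : ℕ) (ϖ₁ : ℕ → T.F (k + 1)) (b : ℕ) : T.F (k + 2) :=
  if k + 2 < 2 * b then T.al (k + 1) (ϖ₁ (b - 1))
  else if 2 * b < k + 2 then T.be (k + 1) (ϖ₁ b)
  else T.xs x (k + 2) (k + 2) - T.xs x (k + 2) 0

/-- the output of the three steps at level `k + 2`. -/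
structure Steps (T : Tower) (q : ℕ) (x : T.F 0) (k : ℕ) (W₁ : ℕ → ValuationSubring (T.F (k + 1)))
    (ϖ₁ : ℕ → T.F (k + 1)) (W₂ : ℕ → ValuationSubring (T.F (k + 2))) : Prop where
  typ : ∀ b ≤ k + 2, HasType W₁ b (W₂ b)
  hi : ∀ b ≤ k + 2, k + 2 < 2 * b → InsepOut (T.al (k + 1)) q (W₁ (b - 1)) (ϖ₁ (b - 1)) (W₂ b)
  lo : ∀ b, 2 * b < k + 2 → InsepOut (T.be (k + 1)) q (W₁ b) (ϖ₁ b) (W₂ b)
  mid : ∀ b, k + 2 = 2 * b →
    RamOut (T.al (k + 1)) q (W₁ (b - 1)) (T.xs x (k + 2) (k + 2) - T.xs x (k + 2) 0) (W₂ b)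
  midCong : ∀ b, k + 2 = 2 * b →
    (W₂ b).valuation ((T.xs x (k + 2) (k + 2) - T.xs x (k + 2) 0) ^ q /
      T.al (k + 1) (ϖ₁ (b - 1)) - 1) < 1

variable {T : Tower} {q : ℕ} {O : ValuationSubring (T.F 0)} {x : T.F 0} {ψ : ℕ → ℕ → ℤ} {k : ℕ}
  {W₀ : ℕ → ValuationSubring (T.F k)} {ϖ₀ : ℕ → T.F k}
  {W₁ : ℕ → ValuationSubring (T.F (k + 1))} {ϖ₁ : ℕ → T.F (k + 1)}

/-- a type determines the valuation. -/
theorem type_unique (H : Hyp T q O x ψ) (hk : 1 ≤ k) (P : Pair T q O x k W₀ ϖ₀ W₁ ϖ₁) {b : ℕ}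
    (hb : b ≤ k + 2) {W W' : ValuationSubring (T.F (k + 2))} (h : HasType W₁ b W)
    (h' : HasType W₁ b W') : W' = W := by
  rcases lt_trichotomy (k + 2) (2 * b) with h2 | h2 | h2
  · exact (stepHi H P.tab' hb h2 h).1.unique W' h'.1
  · exact (stepMid H hk P h2 h).1.unique W' h'.1
  · refine (stepLo H P.tab' h2 h).1.unique W' ?_
    have := h'.2
    rwa [min_eq_left (by omega)] at this

theorem pair_succ_of_typ (H : Hyp T q O x ψ) (hk : 1 ≤ k) (P : Pair T q O x k W₀ ϖ₀ W₁ ϖ₁)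
    {W₂ : ℕ → ValuationSubring (T.F (k + 2))} (hW : ∀ b ≤ k + 2, HasType W₁ b (W₂ b)) :
    Pair T q O x (k + 1) W₁ ϖ₁ W₂ (nextUnif T x k ϖ₁) ∧ Steps T q x k W₁ ϖ₁ W₂ := by
  have hHi : ∀ b ≤ k + 2, k + 2 < 2 * b → nextUnif T x k ϖ₁ b = T.al (k + 1) (ϖ₁ (b - 1)) := by
    intro b _ h2
    rw [nextUnif, if_pos h2]
  have hLo : ∀ b, 2 * b < k + 2 → nextUnif T x k ϖ₁ b = T.be (k + 1) (ϖ₁ b) := by
    intro b h2
    rw [nextUnif, if_neg (by omega), if_pos h2]
  have hMid : ∀ b, k + 2 = 2 * b →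
      nextUnif T x k ϖ₁ b = T.xs x (k + 2) (k + 2) - T.xs x (k + 2) 0 := by
    intro b h2
    rw [nextUnif, if_neg (by omega), if_neg (by omega)]
  have tab2 : Table T q O x (k + 1 + 1) W₂ (nextUnif T x k ϖ₁) :=
    { vert := fun b hb => vert_of_type P hb (hW b hb)
      complete := by
        intro W' hW'
        obtain ⟨b, hb, h⟩ := exists_type H hk P W' hW'
        exact ⟨b, hb, type_unique H hk P hb (hW b hb) h⟩
      inj := by
        intro b hb b' hb' hbb
        refine type_inj P hb hb' (hW b hb) ?_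
        rw [hbb]
        exact hW b' hb'
      unif := by
        intro b hb
        rcases lt_trichotomy (k + 2) (2 * b) with h2 | h2 | h2
        · rw [hHi b hb h2]
          exact (stepHi H P.tab' hb h2 (hW b hb)).1.unif
        · rw [hMid b h2]
          exact (stepMid H hk P h2 (hW b hb)).1.unif
        · rw [hLo b h2]
          exact (stepLo H P.tab' h2 (hW b hb)).1.unif
      ram := by
        intro b hb
        rcases lt_trichotomy (k + 2) (2 * b) with h2 | h2 | h2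
        · rw [hHi b hb h2]
          exact (stepHi H P.tab' hb h2 (hW b hb)).2.2
        · rw [hMid b h2]
          exact (stepMid H hk P h2 (hW b hb)).2.2.2.1
        · rw [hLo b h2]
          exact (stepLo H P.tab' h2 (hW b hb)).2.2
      unif_zero := by
        rw [hLo 0 (by omega), P.tab'.unif_zero, map_natCast]
      unif_top := by
        rw [hHi (k + 1 + 1) le_rfl (by omega)]
        have : ϖ₁ (k + 1 + 1 - 1) = (q : T.F (k + 1)) := P.tab'.unif_top
        rw [this, map_natCast]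
      unif_mid := by
        intro a _ h2
        exact hMid a h2
      xmem := fun b hb i hi => (hW b hb).xmem P.tab' hb hi
      hi := by
        intro b hb h2
        rcases Nat.lt_or_ge (k + 2) (2 * b) with h3 | h3
        · exact (stepHi H P.tab' hb h3 (hW b hb)).2.1
        · exact (stepMid H hk P (by omega) (hW b hb)).2.1
      lo := by
        intro b hb h2
        rcases Nat.lt_or_ge (2 * b) (k + 2) with h3 | h3
        · exact (stepLo H P.tab' h3 (hW b hb)).2.1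
        · exact (stepMid H hk P (by omega) (hW b hb)).2.2.1
      last := fun b hb h1 => (hW b hb).last P.tab' hb h1
      first := fun b hb => (hW b (by omega)).first P.tab' hb }
  refine ⟨⟨P.tab', tab2, ⟨fun b hb => (hW b hb).1, fun b hb => (hW b hb).2, hHi,
    fun b _ h2 => hLo b h2⟩, ?_, ?_⟩, ⟨hW, ?_, ?_, ?_, ?_⟩⟩
  · exact (stepLo H P.tab' (by omega) (hW 0 (by omega))).1.rad
  · exact (stepHi H P.tab' le_rfl (by omega) (hW (k + 2) le_rfl)).1.rad
  · exact fun b hb h2 => (stepHi H P.tab' hb h2 (hW b hb)).1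
  · exact fun b h2 => (stepLo H P.tab' h2 (hW b (by omega))).1
  · exact fun b h2 => (stepMid H hk P h2 (hW b (by omega))).1
  · exact fun b h2 => (stepMid H hk P h2 (hW b (by omega))).2.2.2.2

/-- **The induction step.** -/
theorem pair_succ (H : Hyp T q O x ψ) (hk : 1 ≤ k) (P : Pair T q O x k W₀ ϖ₀ W₁ ϖ₁) :
    ∃ W₂ : ℕ → ValuationSubring (T.F (k + 2)),
      Pair T q O x (k + 1) W₁ ϖ₁ W₂ (nextUnif T x k ϖ₁) ∧ Steps T q x k W₁ ϖ₁ W₂ := by
  classical
  refine ⟨fun b => if hb : b ≤ k + 2 then (exists_of_type H hk P hb).choose else ⊤,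
    pair_succ_of_typ H hk P ?_⟩
  intro b hb
  simp only [dif_pos hb]
  exact (exists_of_type H hk P hb).choose_spec

/-- the state of the induction: the tables of levels `k + 1`, `k + 2`. -/
structure St (T : Tower) (q : ℕ) (O : ValuationSubring (T.F 0)) (x : T.F 0) (k : ℕ) where
  W : ℕ → ValuationSubring (T.F (k + 1))
  ϖ : ℕ → T.F (k + 1)
  W' : ℕ → ValuationSubring (T.F (k + 2))
  ϖ' : ℕ → T.F (k + 2)
  pair : Pair T q O x (k + 1) W ϖ W' ϖ'

/-- one step of the induction. -/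
def St.next (H : Hyp T q O x ψ) (s : St T q O x k) : St T q O x (k + 1) where
  W := s.W'
  ϖ := s.ϖ'
  W' := (pair_succ H (Nat.le_add_left 1 k) s.pair).choose
  ϖ' := nextUnif T x (k + 1) s.ϖ'
  pair := (pair_succ H (Nat.le_add_left 1 k) s.pair).choose_spec.1

theorem St.next_steps (H : Hyp T q O x ψ) (s : St T q O x k) :
    Steps T q x (k + 1) s.W' s.ϖ' (s.next H).W' :=
  (pair_succ H (Nat.le_add_left 1 k) s.pair).choose_spec.2

/-- all the states. -/
def St.iter (H : Hyp T q O x ψ) (s : St T q O x 0) : ∀ k, St T q O x k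
  | 0 => s
  | k + 1 => (St.iter H s k).next H

/-- **All the tables**, starting from the levels `1`, `2`. -/
theorem exists_tables (H : Hyp T q O x ψ) {W₁ : ℕ → ValuationSubring (T.F 1)} {ϖ₁ : ℕ → T.F 1}
    {W₂ : ℕ → ValuationSubring (T.F 2)} {ϖ₂ : ℕ → T.F 2} (P : Pair T q O x 1 W₁ ϖ₁ W₂ ϖ₂) :
    ∃ (W : ∀ k, ℕ → ValuationSubring (T.F k)) (ϖ : ∀ k, ℕ → T.F k),
      W 1 = W₁ ∧ ϖ 1 = ϖ₁ ∧ W 2 = W₂ ∧ ϖ 2 = ϖ₂ ∧
      (∀ k, 1 ≤ k → Pair T q O x k (W k) (ϖ k) (W (k + 1)) (ϖ (k + 1))) ∧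
      (∀ k, 1 ≤ k → Steps T q x k (W (k + 1)) (ϖ (k + 1)) (W (k + 2))) ∧
      (∀ k, 1 ≤ k → ϖ (k + 2) = nextUnif T x k (ϖ (k + 1))) := by
  let s : St T q O x 0 := ⟨W₁, ϖ₁, W₂, ϖ₂, P⟩
  refine ⟨fun k => match k with
      | 0 => fun _ => O
      | k + 1 => (St.iter H s k).W,
    fun k => match k with
      | 0 => fun _ => x
      | k + 1 => (St.iter H s k).ϖ, rfl, rfl, rfl, rfl, ?_, ?_, ?_⟩
  · rintro (_ | k) hk
    · omega
    · exact (St.iter H s k).pair
  · rintro (_ | k) hk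
    · omega
    · exact (St.iter H s k).next_steps H
  · rintro (_ | k) hk
    · omega
    · rfl

end Fermat.Agent.S45.Tab

end
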