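/-
S45 / TAB (architect helper117).  LEAF T14: THE TYPES `F^a V^b`, `a > b`, OF LEVEL `k + 2`  (purely inseparable for `be`).   Mirror of `StepHi.lean`.
PROOF.  `b ≤ k + 1`, so `min b (k+1) = b`; `U := W₁ b` (`2 b ≤ k + 1`), `φ := be (k+1)`, `y₀ := xs (k+2) 0 ∈ W`, `c := xs (k+1) 0`,
`φ c = xs (k+2) 1` (`be_xs`), `hc` = `HasType.first`.
`hn`: if `W (φ y' - y₀) < 1` then `y' ∈ U` and `U (y' ^ q - c) < 1`: contradiction with `D.lo b`.
`insepOut φ H.prime (H.degB (k+1) _) (D.unif b _) (D.q_lt_one _) h.2' ...`.   `lo`, `ram`: as in `StepHi.lean`.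
-/
import Fermat.Agent.S45.Tab.TypAux
import Fermat.Agent.S45.Tab.Insep
import Fermat.Agent.S36.BP.Cong

set_option autoImplicit false

namespace Fermat.Agent.S45.Tab

open Fermat.Agent.S18 Fermat.Agent.S36 Fermat.Agent.S45.K

variable {T : Tower} {q : ℕ} {O : ValuationSubring (T.F 0)} {x : T.F 0} {ψ : ℕ → ℕ → ℤ} {k : ℕ}
  {W₁ : ℕ → ValuationSubring (T.F (k + 1))} {ϖ₁ : ℕ → T.F (k + 1)}
  {W : ValuationSubring (T.F (k + 2))} {b : ℕ}

theorem stepLo (H : Hyp T q O x ψ) (D : Table T q O x (k + 1) W₁ ϖ₁) (h2 : 2 * b < k + 2)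
    (h : HasType W₁ b W) :
    InsepOut (T.be (k + 1)) q (W₁ b) (ϖ₁ b) W ∧
      (∀ y ∈ W, ¬ W.valuation (y ^ q - T.xs x (k + 2) 0) < 1) ∧
      ∃ e : ℕ, 1 ≤ e ∧ e ≤ q ^ (k + 2) ∧
        W.valuation (T.be (k + 1) (ϖ₁ b)) ^ e = W.valuation (q : T.F (k + 2)) := by
  have hb1 : b ≤ k + 1 := by omega
  have hb : b ≤ k + 2 := by omega
  have hlo : 2 * b ≤ k + 1 := by omega
  have hB : W.comap (T.be (k + 1)) = W₁ b := by
    have := h.2
    rwa [min_eq_left hb1] at this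
  have hy₀ : T.xs x (k + 2) 0 ∈ W := h.xmem D hb (Nat.zero_le _)
  have hφc : T.be (k + 1) (T.xs x (k + 1) 0) = T.xs x (k + 2) 1 :=
    be_xs T x (k + 1) 0 (Nat.zero_le _)
  have hc : W.valuation (T.be (k + 1) (T.xs x (k + 1) 0) - T.xs x (k + 2) 0 ^ q) < 1 := by
    rw [hφc]
    exact h.first D (by omega)
  have hn : ∀ y' : T.F (k + 1), ¬ W.valuation (T.be (k + 1) y' - T.xs x (k + 2) 0) < 1 := by
    intro y' hy'
    have hy₀1 : W.valuation (T.xs x (k + 2) 0) ≤ 1 := (W.valuation_le_one_iff _).2 hy₀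
    have h1 : BP.Cong W (T.be (k + 1) y') (T.xs x (k + 2) 0) := hy'
    have hmem : T.be (k + 1) y' ∈ W := (W.valuation_le_one_iff _).1 (h1.le_one hy₀1)
    have hy'U : y' ∈ W₁ b := (co_mem_iff hB y').1 hmem
    have h3 : BP.Cong W (T.be (k + 1) y' ^ q) (T.be (k + 1) (T.xs x (k + 1) 0)) :=
      (h1.pow hy₀1 q).trans (BP.Cong.symm hc)
    have h4 : W.valuation (T.be (k + 1) (y' ^ q - T.xs x (k + 1) 0)) < 1 := by
      rw [map_sub, map_pow]
      exact h3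
    exact D.lo b hb1 hlo y' hy'U ((co_lt_one_iff hB _).1 h4)
  have hI : InsepOut (T.be (k + 1)) q (W₁ b) (ϖ₁ b) W :=
    insepOut (T.be (k + 1)) H.prime (H.degB (k + 1) (by omega)) (D.unif b hb1)
      (D.q_lt_one hb1) hB hy₀ hc hn
  refine ⟨hI, ?_, ?_⟩
  · intro y hy hlt
    obtain ⟨y', hy'⟩ := hI.pow y hy
    exact hn y' (BP.Cong.trans (V := W) hy' hlt)
  · obtain ⟨e, he1, he2, he⟩ := D.ram b hb1
    refine ⟨e, he1, he2.trans (Nat.pow_le_pow_right H.prime.pos (by omega)), ?_⟩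
    have := co_pow_eq hB he
    rwa [map_natCast] at this

end Fermat.Agent.S45.Tab
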