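/-
S45 / TAB1 (design helper117; this file: helper80).  THE BASE OF THE INDUCTION AND THE FINAL EXPORT OF TAB1.
`M : Mod.Tower K`, `G : M.Gen q`, `B : M.Base A₀ q V0 V1 V2`  ⟹
* `ofMod M G : Tab.Tower` (same fields, `al`, `be` as ring homomorphisms);
* `hyp_ofMod`   : `Hyp (ofMod M G) q V0 M.j ψ` for some `ψ`;
* `pair_one`    : `Pair (ofMod M G) q V0 M.j 1 (w1 V1) (p1 ..) (w2 V2) (p2 ..)`;
* `exists_sys`  : ONE coherent family `W k`, `ϖ k` (`Tab2.Sys`), with `W 1 = w1 V1`, `W 2 = w2 V2`, `Tab2.DBase`, and `Steps` at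
                  every level `k + 2 ≥ 3`.
INDEX = number of letters `V`:  `w1 V1 0 = V1 0` (`F`), `w1 V1 1 = V1 1` (`V`);  `w2 V2 b = V2 b` (`FF`, `FV`, `VV`).
-/
import Fermat.Agent.S45.Mod.Tower
import Fermat.Agent.S45.Tab.Next
import Fermat.Agent.S45.Tab2.Dense

set_option autoImplicit false

noncomputable section

namespace Fermat.Agent.S45.Tab

open Fermat.Agent.S18 Fermat.Agent.S36 Fermat.Agent.S36.BP Fermat.Agent.S45.K Fermat.Agent.S45.Mod

variable {K : Type} [Field K] (M : Mod.Tower K) {q : ℕ}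

/-- the tower of block TAB attached to the tower of block MOD. -/
abbrev ofMod (G : M.Gen q) : Tab.Tower where
  F := M.F
  fld := M.fld
  chr := fun k => by
    have := G.charZero
    exact charZero_of_injective_algebraMap (algebraMap K (M.F k)).injective
  al := fun k => (M.al k).toRingHom
  be := fun k => (M.be k).toRingHom
  comm := fun k y => (G.comm k y).symm

variable {M} (G : M.Gen q)

theorem ofMod_dA : ∀ (k : ℕ) (y : M.F 0), (ofMod M G).dA k y = M.da k y
  | 0, _ => rfl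
  | k + 1, y => by
    show (M.al k) ((ofMod M G).dA k y) = M.al k (M.da k y)
    rw [ofMod_dA k y]

theorem ofMod_dd : ∀ (k i : ℕ) (y : M.F 0), Tab2.dd (ofMod M G) k i y = M.dd k i y
  | 0, _, _ => rfl
  | k + 1, i, y => by
    by_cases h : i ≤ k
    · rw [M.dd_succ_of_le h, ← ofMod_dd k i y, ← Tab2.al_dd (ofMod M G) h]
      rfl
    · rw [Tab2.dd, if_neg h, Mod.Tower.dd, if_neg h]
      show (M.be k) (Tab2.dd (ofMod M G) k k y) = M.be k (M.dd k k y)
      rw [ofMod_dd k k y]

theorem mod_dd_self : ∀ (k : ℕ) (y : M.F 0), M.dd k k y = M.db k y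
  | 0, _ => rfl
  | k + 1, y => by rw [M.dd_succ_self, mod_dd_self k y, M.db_succ]

theorem ofMod_dB (k : ℕ) (y : M.F 0) : Tab2.dB (ofMod M G) k y = M.db k y := by
  rw [Tab2.dB, ofMod_dd, mod_dd_self]

theorem ofMod_xs (k i : ℕ) : (ofMod M G).xs M.j k i = M.X k i := by
  rw [Tab2.xs_eq, ofMod_dd]
  rfl

variable {A₀ : ValuationSubring K} {V0 : ValuationSubring (M.F 0)}
  {V1 : Fin 2 → ValuationSubring (M.F 1)} {V2 : Fin 3 → ValuationSubring (M.F 2)}

theorem hyp_ofMod (B : M.Base A₀ q V0 V1 V2) : ∃ ψ, Hyp (ofMod M G) q V0 M.j ψ := by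
  obtain ⟨ψ, hs, hk⟩ := G.kron
  refine ⟨ψ, ⟨B.base.prime, fun k hk => G.dg_al k hk, fun k hk => G.dg_be k hk, hk, ?_, ?_⟩⟩
  · show kronPoly q ψ (M.be 0 M.j) (M.al 0 M.j) = 0
    rw [kronPoly_symm q ψ hs]
    exact hk
  · intro W
    constructor
    · intro h
      obtain ⟨c, rfl⟩ := B.complete_al1 W h
      exact B.comap_be1 c
    · intro h
      obtain ⟨c, rfl⟩ := B.complete_be1 W h
      exact B.comap_al1 c

/-- the vertical valuations of level `1`, indexed by the number of letters `V`. -/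
def baseW1 (V1 : Fin 2 → ValuationSubring (M.F 1)) (b : ℕ) : ValuationSubring (M.F 1) :=
  V1 (if b = 0 then 0 else 1)

/-- the vertical valuations of level `2`, indexed by the number of letters `V`. -/
def baseW2 (V2 : Fin 3 → ValuationSubring (M.F 2)) (b : ℕ) : ValuationSubring (M.F 2) :=
  V2 (if b = 0 then 0 else if b = 1 then 1 else 2)

/-- the uniformisers of level `1`. -/
def baseP1 (M : Mod.Tower K) (q : ℕ) (_ : ℕ) : M.F 1 := (q : M.F 1)

/-- the uniformisers of level `2`. -/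
def baseP2 (M : Mod.Tower K) (q : ℕ) (b : ℕ) : M.F 2 :=
  if b = 1 then M.X 2 2 - M.X 2 0 else (q : M.F 2)

theorem j_mem (B : M.Base A₀ q V0 V1 V2) : M.j ∈ V0 :=
  (V0.valuation_le_one_iff _).1 B.j_unit.le

/-- no `q`-th root of `φ j` in the residue field, if `φ` is dense. -/
theorem no_root {F : Type*} [Field F] {φ : M.F 0 →+* F} {W : ValuationSubring F}
    (B : M.Base A₀ q V0 V1 V2) (hφ : W.comap φ = V0)
    (hd : ∀ y ∈ W, ∃ r : M.F 0, W.valuation (φ r - y) < 1) :
    ∀ y ∈ W, ¬ W.valuation (y ^ q - φ M.j) < 1 := by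
  intro y hy h
  obtain ⟨r, hr⟩ := hd y hy
  have hy1 : W.valuation y ≤ 1 := (W.valuation_le_one_iff _).2 hy
  have h1 : BP.Cong W (φ r) y := hr
  have h2 : BP.Cong W (φ r ^ q) (φ M.j) := (h1.pow hy1 q).trans h
  have h3 : W.valuation (φ (r ^ q - M.j)) < 1 := by
    rw [map_sub, map_pow]
    exact h2
  exact B.j_insep r ((co_lt_one_iff hφ _).1 h3)

theorem table_one (B : M.Base A₀ q V0 V1 V2) :
    Table (ofMod M G) q V0 M.j 1 (baseW1 V1) (baseP1 M q) where
  vert := fun b _ => B.comap_al1 _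
  complete := by
    intro W' hW'
    obtain ⟨c, rfl⟩ := B.complete_al1 W' hW'
    fin_cases c
    · exact ⟨0, by omega, rfl⟩
    · exact ⟨1, le_rfl, rfl⟩
  inj := by
    intro b hb b' hb' h
    have := B.inj1 h
    interval_cases b <;> interval_cases b' <;> simp_all
  unif := fun b _ => B.unif1 _
  ram := fun b _ => ⟨1, le_rfl, by rw [pow_one]; exact B.base.prime.one_lt.le, pow_one _⟩
  unif_zero := rfl
  unif_top := rfl
  unif_mid := by
    intro a h1 h2
    omega
  xmem := by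
    intro b _ i hi
    rw [ofMod_xs]
    interval_cases i
    · exact (co_mem_iff (B.comap_al1 _) M.j).2 (j_mem B)
    · exact (co_mem_iff (B.comap_be1 _) M.j).2 (j_mem B)
  hi := by
    intro b hb h2
    obtain rfl : b = 1 := by omega
    rw [ofMod_xs]
    exact no_root B (B.comap_be1 1) B.denseV
  lo := by
    intro b hb h2
    obtain rfl : b = 0 := by omega
    rw [ofMod_xs]
    exact no_root B (B.comap_al1 0) B.denseF
  last := by
    intro b hb h1
    obtain rfl : b = 1 := by omega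
    rw [ofMod_xs, ofMod_xs]
    exact B.typeV
  first := by
    intro b hb
    obtain rfl : b = 0 := by omega
    rw [ofMod_xs, ofMod_xs]
    exact B.typeF

theorem comap_al2 (B : M.Base A₀ q V0 V1 V2) {b : ℕ} (_hb : b ≤ 2) :
    (baseW2 V2 b).comap (M.al 1).toRingHom = baseW1 V1 (b - 1) := by
  interval_cases b
  · exact B.comap_al2.1
  · exact B.comap_al2.2.1
  · exact B.comap_al2.2.2

theorem comap_be2 (B : M.Base A₀ q V0 V1 V2) {b : ℕ} (_hb : b ≤ 2) :
    (baseW2 V2 b).comap (M.be 1).toRingHom = baseW1 V1 (min b 1) := by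
  interval_cases b
  · exact B.comap_be2.1
  · exact B.comap_be2.2.1
  · exact B.comap_be2.2.2

theorem comap_da2 (B : M.Base A₀ q V0 V1 V2) {b : ℕ} (hb : b ≤ 2) :
    (baseW2 V2 b).comap (M.da 2).toRingHom = V0 := by
  have h1 : (baseW2 V2 b).comap (M.da 2).toRingHom =
      ((baseW2 V2 b).comap (M.al 1).toRingHom).comap (M.al 0).toRingHom := rfl
  rw [h1, comap_al2 B hb]
  exact B.comap_al1 _

theorem comap_db2 (B : M.Base A₀ q V0 V1 V2) {b : ℕ} (hb : b ≤ 2) :
    (baseW2 V2 b).comap (M.db 2).toRingHom = V0 := by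
  have h1 : (baseW2 V2 b).comap (M.db 2).toRingHom =
      ((baseW2 V2 b).comap (M.be 1).toRingHom).comap (M.be 0).toRingHom := rfl
  rw [h1, comap_be2 B hb]
  exact B.comap_be1 _

theorem table_two (B : M.Base A₀ q V0 V1 V2) :
    Table (ofMod M G) q V0 M.j 2 (baseW2 V2) (baseP2 M q) where
  vert := fun b hb => comap_da2 B hb
  complete := by
    intro W' hW'
    obtain ⟨c, rfl⟩ := B.complete_a2 W' hW'
    fin_cases c
    · exact ⟨0, by omega, rfl⟩
    · exact ⟨1, by omega, rfl⟩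
    · exact ⟨2, le_rfl, rfl⟩
  inj := by
    intro b hb b' hb' h
    have := B.inj2 h
    interval_cases b <;> interval_cases b' <;> simp_all
  unif := by
    intro b hb
    interval_cases b
    · exact B.unif20
    · exact B.unif21
    · exact B.unif22
  ram := by
    intro b hb
    have hq := B.base.prime.two_le
    have hq2 : q ≤ q ^ 2 := by nlinarith
    interval_cases b
    · exact ⟨1, le_rfl, by omega, pow_one _⟩
    · exact ⟨q - 1, by omega, by omega, B.ram21⟩
    · exact ⟨1, le_rfl, by omega, pow_one _⟩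
  unif_zero := rfl
  unif_top := rfl
  unif_mid := by
    intro a h1 h2
    obtain rfl : a = 1 := by omega
    rw [ofMod_xs, ofMod_xs]
    rfl
  xmem := by
    intro b hb i hi
    rw [ofMod_xs]
    interval_cases i
    · exact (co_mem_iff (comap_da2 B hb) M.j).2 (j_mem B)
    · refine (co_mem_iff (comap_al2 B hb) (M.be 0 M.j)).2 ?_
      exact (co_mem_iff (B.comap_be1 _) M.j).2 (j_mem B)
    · exact (co_mem_iff (comap_db2 B hb) M.j).2 (j_mem B)
  hi := by
    intro b hb h2
    rw [ofMod_xs]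
    have hb1 : 1 ≤ b := by omega
    interval_cases b
    · exact no_root B (comap_db2 B (by omega : 1 ≤ 2)) B.dense21b
    · exact no_root B (comap_db2 B (by omega : 2 ≤ 2)) B.dense22
  lo := by
    intro b hb h2
    rw [ofMod_xs]
    have hb1 : b ≤ 1 := by omega
    interval_cases b
    · exact no_root B (comap_da2 B (by omega : 0 ≤ 2)) B.dense20
    · exact no_root B (comap_da2 B (by omega : 1 ≤ 2)) B.dense21a
  last := by
    intro b hb h1
    rw [ofMod_xs, ofMod_xs]
    have h : (baseW2 V2 b).comap (M.be 1).toRingHom = V1 1 := by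
      rw [comap_be2 B hb]
      interval_cases b <;> rfl
    have := (co_lt_one_iff h (M.al 0 M.j - M.be 0 M.j ^ q)).2 B.typeV
    rw [map_sub, map_pow] at this
    have e1 : M.X 2 (2 - 1) = (M.be 1).toRingHom (M.al 0 M.j) := (G.comm 0 M.j)
    rw [e1]
    exact this
  first := by
    intro b hb
    rw [ofMod_xs, ofMod_xs]
    have h : (baseW2 V2 b).comap (M.al 1).toRingHom = V1 0 := by
      rw [comap_al2 B hb.le]
      interval_cases b <;> rfl
    have := (co_lt_one_iff h (M.be 0 M.j - M.al 0 M.j ^ q)).2 B.typeF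
    rw [map_sub, map_pow] at this
    exact this

theorem pair_one (B : M.Base A₀ q V0 V1 V2) :
    Pair (ofMod M G) q V0 M.j 1 (baseW1 V1) (baseP1 M q) (baseW2 V2) (baseP2 M q) where
  tab := table_one G B
  tab' := table_two G B
  compat :=
    { resA := fun b hb => comap_al2 B hb
      resB := fun b hb => comap_be2 B hb
      unifA := by
        intro b hb h2
        obtain rfl : b = 2 := by omega
        exact (map_natCast (M.al 1).toRingHom q).symm
      unifB := by
        intro b hb h2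
        obtain rfl : b = 0 := by omega
        exact (map_natCast (M.be 1).toRingHom q).symm }
  radB := ⟨B.halfβ.ord_b, B.halfβ.res_b⟩
  radA := ⟨B.halfα.ord_b, B.halfα.res_b⟩

/-- **The final export of TAB1**: one coherent family of tables. -/
theorem exists_sys (B : M.Base A₀ q V0 V1 V2) :
    ∃ (ψ : ℕ → ℕ → ℤ) (W : ∀ k, ℕ → ValuationSubring (M.F k)) (ϖ : ∀ k, ℕ → M.F k),
      Hyp (ofMod M G) q V0 M.j ψ ∧ W 1 = baseW1 V1 ∧ ϖ 1 = baseP1 M q ∧ W 2 = baseW2 V2 ∧
      ϖ 2 = baseP2 M q ∧ Tab2.Sys (ofMod M G) q V0 M.j W ϖ ∧ Tab2.DBase (ofMod M G) W ∧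
      (∀ k, 1 ≤ k → Steps (ofMod M G) q M.j k (W (k + 1)) (ϖ (k + 1)) (W (k + 2))) ∧
      (∀ k, 1 ≤ k → ϖ (k + 2) = nextUnif (ofMod M G) M.j k (ϖ (k + 1))) := by
  obtain ⟨ψ, H⟩ := hyp_ofMod G B
  obtain ⟨W, ϖ, h1, h2, h3, h4, hP, hS, hU⟩ := exists_tables H (pair_one G B)
  refine ⟨ψ, W, ϖ, H, h1, h2, h3, h4, hP, ⟨?_, ?_, ?_, ?_⟩, hS, hU⟩
  · rw [h1]
    exact B.denseF
  · rw [h1]
    intro y hy
    obtain ⟨r, hr⟩ := B.denseV y hy
    exact ⟨r, by rw [ofMod_dB]; exact hr⟩
  · rw [h3]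
    intro y hy
    obtain ⟨r, hr⟩ := B.dense21a y hy
    exact ⟨r, by rw [ofMod_dA]; exact hr⟩
  · rw [h3]
    intro y hy
    obtain ⟨r, hr⟩ := B.dense21b y hy
    exact ⟨r, by rw [ofMod_dB]; exact hr⟩

end Fermat.Agent.S45.Tab

end
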