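/-
S45 / TAB (helper117).  THE EXPLICIT UNIFORMISERS of a coherent system of tables:
`ϖ k b = x_(a+m) - x_(a-m)`, `a = k - b`, `m = min b a` (`0 < b < k`), and the ratio form `x_(a+m) / x_(a-m) - 1`.
-/
import Fermat.Agent.S45.Tab2.Win

set_option autoImplicit false

namespace Fermat.Agent.S45.Tab

open Fermat.Agent.S18 Fermat.Agent.S45.Tab2

variable {T : Tower} {q : ℕ} {O : ValuationSubring (T.F 0)} {x : T.F 0}
  {W : ∀ k, ℕ → ValuationSubring (T.F k)} {ϖ : ∀ k, ℕ → T.F k}

theorem unifX (P : Sys T q O x W ϖ) : ∀ k b, 0 < b → b < k →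
    ϖ k b = T.xs x k (k - b + min b (k - b)) - T.xs x k (k - b - min b (k - b))
  | 0, b, h0, h1 => by omega
  | 1, b, h0, h1 => by omega
  | k + 2, b, h0, h1 => by
    have Pk := P (k + 1) (by omega)
    rcases lt_trichotomy (k + 2) (2 * b) with h | h | h
    · rw [Pk.compat.unifA b (by omega) h, unifX P (k + 1) (b - 1) (by omega) (by omega), map_sub,
        al_xs _ _ _ _ (by omega), al_xs _ _ _ _ (by omega)]
      congr 2 <;> omega
    · rw [Pk.tab'.unif_mid b h0 h]
      congr 2 <;> omega
    · rw [Pk.compat.unifB b (by omega) h, unifX P (k + 1) b h0 (by omega), map_sub,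
        be_xs _ _ _ _ (by omega), be_xs _ _ _ _ (by omega)]
      congr 2 <;> omega

theorem isUnif_mul_unit {F : Type*} [Field F] {V : ValuationSubring F} {π u : F}
    (h : IsUnif V π) (hu : V.valuation u = 1) : IsUnif V (π * u) := by
  have hv : V.valuation (π * u) = V.valuation π := by rw [map_mul, hu, mul_one]
  refine ⟨?_, ?_, ?_⟩
  · rw [← ValuationSubring.valuation_le_one_iff, hv, ValuationSubring.valuation_le_one_iff]
    exact h.mem
  · rw [← ValuationSubring.valuation_le_one_iff, map_inv₀, hv, ← map_inv₀,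
      ValuationSubring.valuation_le_one_iff]
    exact h.inv_notMem
  · intro y hy
    obtain ⟨n, h1, h2⟩ := h.exists_zpow y hy
    have hv' : V.valuation (y / (π * u) ^ n) = V.valuation (y / π ^ n) := by
      rw [map_div₀, map_div₀, map_zpow₀, map_zpow₀, hv]
    refine ⟨n, ?_, ?_⟩
    · rw [← ValuationSubring.valuation_le_one_iff, hv', ValuationSubring.valuation_le_one_iff]
      exact h1
    · rw [← ValuationSubring.valuation_le_one_iff, map_inv₀, hv', ← map_inv₀,
        ValuationSubring.valuation_le_one_iff]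
      exact h2

theorem isUnif_ratio {F : Type*} [Field F] {V : ValuationSubring F} {X Y : F}
    (h : IsUnif V (X - Y)) (hY : V.valuation Y = 1) : IsUnif V (X / Y - 1) := by
  have hY0 : Y ≠ 0 := by
    rintro rfl
    rw [map_zero] at hY
    exact zero_ne_one hY
  have : X / Y - 1 = (X - Y) * Y⁻¹ := by field_simp
  rw [this]
  exact isUnif_mul_unit h (by rw [map_inv₀, hY, inv_one])

/-- **The explicit uniformiser, ratio form.** -/
theorem unifX_ratio {ψ : ℕ → ℕ → ℤ} (H : Hyp T q O x ψ) (P : Sys T q O x W ϖ)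
    (hx : O.valuation x = 1) {k b : ℕ} (h0 : 0 < b) (h1 : b < k) :
    IsUnif (W k b) (dd T k (k - b + min b (k - b)) x / dd T k (k - b - min b (k - b)) x - 1) := by
  have hk : 1 ≤ k := by omega
  have hU := (P.tab hk).unif b h1.le
  rw [unifX P k b h0 h1, xs_eq, xs_eq] at hU
  refine isUnif_ratio hU ?_
  exact (co_eq_one_iff (P.comap_dd H hk (by omega) h1.le) x).2 hx

end Fermat.Agent.S45.Tab
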