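/-
S45 / TAB (helper117).  **NODE TAB**: `nodeTab : Ind.NodeTab`, the contract of block TAB in `Ind/Defs.lean`.
Assembly of `Tab/Base.lean` (`exists_sys`, helper80), `Tab2/Dense.lean` (helper64), `Tab/UnifX.lean`.
-/
import Fermat.Agent.S45.Tab.Base
import Fermat.Agent.S45.Tab.UnifX
import Fermat.Agent.S45.Ind.Defs

set_option autoImplicit false

noncomputable section

namespace Fermat.Agent.S45.Tab

open Fermat.Agent.S18 Fermat.Agent.S36 Fermat.Agent.S36.BP Fermat.Agent.S45.K Fermat.Agent.S45.Mod

variable {K : Type} [Field K] {M : Mod.Tower K} {q : ℕ}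

theorem ofMod_dA_hom (G : M.Gen q) (k : ℕ) : (ofMod M G).dA k = (M.da k : M.F 0 →+* M.F k) :=
  RingHom.ext fun y => ofMod_dA G k y

theorem tabOut_of_base (G : M.Gen q) {A₀ : ValuationSubring K} {V0 : ValuationSubring (M.F 0)}
    {V1 : Fin 2 → ValuationSubring (M.F 1)} {V2 : Fin 3 → ValuationSubring (M.F 2)}
    (B : M.Base A₀ q V0 V1 V2) : ∃ fam : Ind.Fam M, Ind.TabOut M q V0 V1 V2 fam := by
  obtain ⟨ψ, W, ϖ, H, hW1, -, hW2, -, P, D, S, -⟩ := exists_sys G B
  refine ⟨⟨W, ϖ⟩, ?_⟩
  exact
    { lvl1 := by
        intro c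
        show W 1 c = V1 c
        rw [hW1]
        fin_cases c <;> rfl
      lvl2 := by
        intro c
        show W 2 c = V2 c
        rw [hW2]
        fin_cases c <;> rfl
      complete := by
        intro k hk W' hW'
        rw [← ofMod_dA_hom G k] at hW'
        exact (P.tab hk).complete W' hW'
      inj := fun k hk => (P.tab hk).inj
      unif := fun k hk => (P.tab hk).unif
      ram := fun k hk => (P.tab hk).ram
      unif_zero := fun k hk => (P.tab hk).unif_zero
      unif_top := fun k hk => (P.tab hk).unif_top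
      resA := fun k hk => (P.compat hk).resA
      resB := fun k hk => (P.compat hk).resB
      rad := by
        intro k hk b hb
        obtain ⟨n, rfl⟩ : ∃ n, k = n + 1 := ⟨k - 1, by omega⟩
        have Sn := S n (by omega)
        rcases lt_trichotomy (n + 2) (2 * b) with h | h | h
        · exact Or.inl (Sn.hi b hb h).rad
        · exact Or.inl (Sn.mid b h).rad
        · exact Or.inr (Sn.lo b h).rad
      radB := fun k hk => (P k hk).radB
      radA := fun k hk => (P k hk).radA
      dense_lo := by
        intro k hk b _ h2 y hy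
        obtain ⟨y', h⟩ := P.denseA H D hk h2 y hy
        rw [ofMod_dA] at h
        exact ⟨y', h⟩
      dense_hi := by
        intro k hk b hb h2 y hy
        obtain ⟨y', h⟩ := P.denseB H D hk hb h2 y hy
        rw [ofMod_dB] at h
        exact ⟨y', h⟩
      unif_mid := by
        intro k b h0 h1
        have h := unifX_ratio H P B.j_unit h0 h1
        rw [ofMod_dd, ofMod_dd] at h
        exact h }

/-- **NODE TAB.** -/
theorem nodeTab : Ind.NodeTab :=
  fun _ _ _ _ _ _ _ _ G B _ => tabOut_of_base G B

end Fermat.Agent.S45.Tab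

end
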