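/-
S45 / TAB (architect helper117).  T18: `embNorm` and towers (transitivity of norms), purely formal.
-/
import Fermat.Agent.S45.Tab.Defs

set_option autoImplicit false
set_option linter.style.haveILetI false

noncomputable section

namespace Fermat.Agent.S45.Tab

open Fermat.Agent.S36

variable {F₁ F₂ F₃ : Type*} [Field F₁] [Field F₂] [Field F₃]

/-- the norm along an embedding -/
def nrm (f : F₁ →+* F₂) : F₂ →* F₁ := letI := f.toAlgebra; Algebra.norm F₁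

theorem embNorm_eq (f : F₁ →+* F₂) (y : F₂) : embNorm f y = f (nrm f y) := rfl

theorem nrm_map (f : F₁ →+* F₂) {n : ℕ}
    (hn : (letI := f.toAlgebra; Module.finrank F₁ F₂) = n) (c : F₁) : nrm f (f c) = c ^ n := by
  letI := f.toAlgebra
  have := Algebra.norm_algebraMap (R := F₁) (S := F₂) c
  rw [hn] at this
  exact this

theorem embNorm_map (f : F₁ →+* F₂) {n : ℕ}
    (hn : (letI := f.toAlgebra; Module.finrank F₁ F₂) = n) (c : F₁) :
    embNorm f (f c) = f c ^ n := by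
  rw [embNorm_eq, nrm_map f hn, map_pow]

theorem nrm_comp (φ : F₁ →+* F₂) (ψ : F₂ →+* F₃) (y : F₃) :
    nrm (ψ.comp φ) y = nrm φ (nrm ψ y) := by
  letI := φ.toAlgebra
  letI := ψ.toAlgebra
  letI := (ψ.comp φ).toAlgebra
  haveI : IsScalarTower F₁ F₂ F₃ := IsScalarTower.of_algebraMap_eq fun _ => rfl
  exact (Algebra.norm_norm (R := F₁) (S := F₂) (a := y)).symm

theorem embNorm_comp (φ : F₁ →+* F₂) (ψ : F₂ →+* F₃) (y : F₃) :
    embNorm (ψ.comp φ) y = ψ (embNorm φ (nrm ψ y)) := by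
  rw [embNorm_eq, nrm_comp, embNorm_eq]; rfl

theorem finrank_comp (φ : F₁ →+* F₂) (ψ : F₂ →+* F₃) {m n : ℕ}
    (hm : (letI := φ.toAlgebra; Module.finrank F₁ F₂) = m)
    (hn : (letI := ψ.toAlgebra; Module.finrank F₂ F₃) = n) :
    (letI := (ψ.comp φ).toAlgebra; Module.finrank F₁ F₃) = m * n := by
  letI := φ.toAlgebra
  letI := ψ.toAlgebra
  letI := (ψ.comp φ).toAlgebra
  haveI : IsScalarTower F₁ F₂ F₃ := IsScalarTower.of_algebraMap_eq fun _ => rfl
  rw [← hm, ← hn]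
  exact (Module.finrank_mul_finrank F₁ F₂ F₃).symm

/-- `N₀ (N y) = N₀ y ^ n` -/
theorem embNorm_comp_embNorm (φ : F₁ →+* F₂) (ψ : F₂ →+* F₃) {n : ℕ}
    (hn : (letI := ψ.toAlgebra; Module.finrank F₂ F₃) = n) (y : F₃) :
    embNorm (ψ.comp φ) (embNorm ψ y) = embNorm (ψ.comp φ) y ^ n := by
  rw [embNorm_comp, embNorm_comp, embNorm_eq ψ, nrm_map ψ hn, map_pow, map_pow]

/-- `N y = 1 → N₀ y = 1` -/
theorem embNorm_comp_eq_one (φ : F₁ →+* F₂) (ψ : F₂ →+* F₃) {y : F₃} (h : embNorm ψ y = 1) :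
    embNorm (ψ.comp φ) y = 1 := by
  rw [embNorm_eq] at h
  have h1 : nrm ψ y = 1 := ψ.injective (by rw [h, map_one])
  rw [embNorm_comp, h1, map_one, map_one]

/-- `N₀ (ψ y') = ψ (N_φ y') ^ n` -/
theorem embNorm_comp_map (φ : F₁ →+* F₂) (ψ : F₂ →+* F₃) {n : ℕ}
    (hn : (letI := ψ.toAlgebra; Module.finrank F₂ F₃) = n) (y' : F₂) :
    embNorm (ψ.comp φ) (ψ y') = ψ (embNorm φ y') ^ n := by
  rw [embNorm_comp, nrm_map ψ hn, map_pow, map_pow]

end Fermat.Agent.S45.Tab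

end
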