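/-
S45 / TAB (architect helper117).  LEAF T3: the norm and the unique extension: `W (N y) = W y ^ n`.
Compare `S36/BP/Build/HalfOrd.lean` (`ord_of_tab_one`, the case `e = 1`).
PROOF.  `y = 0` trivial (`n ≥ 1`).  `hz.exists_zpow`: `y = z ^ m * u`, `u` a unit of `W`; `N u` is a unit of `V` (`Tab.norm_unit`), so `W (N u) = 1`
(`tr_eq_one_iff`).  `z ^ e = ϖ * u'`, `u'` a unit of `W`: `N z ^ e = ϖ ^ n * N u'` (`Algebra.norm_algebraMap`), so `W (N z) ^ e = W ϖ ^ n = (W z ^ n) ^ e`,
hence `W (N z) = W z ^ n` (`pow_left_injective`/`pow_left_inj₀` in a linearly ordered group with zero, `e ≠ 0`).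
-/
import Fermat.Agent.S45.Tab.Defs
import Fermat.Agent.S36.BP.Build.HalfOrd

set_option autoImplicit false

namespace Fermat.Agent.S45.Tab

open Fermat.Agent.S18 Fermat.Agent.S36.BP.BuildHalf

/-- auxiliary: units of `V` stay units of `W`. -/
theorem ordTab_tr_eq_one {K L : Type*} [Field K] [Field L] [Algebra K L] {V : ValuationSubring K}
    {W : ValuationSubring L} (hl : W.comap (algebraMap K L) = V) {x : K}
    (hx : V.valuation x = 1) : W.valuation (algebraMap K L x) = 1 := by
  have h0 : x ≠ 0 := by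
    intro h0
    rw [h0, map_zero] at hx
    exact zero_ne_one hx
  have h1 : x ∈ V := (V.valuation_le_one_iff _).1 hx.le
  have h2 : x⁻¹ ∈ V := by
    rw [← V.valuation_le_one_iff, map_inv₀, hx, inv_one]
  rw [← hl] at h1 h2
  have h1' : W.valuation (algebraMap K L x) ≤ 1 := (W.valuation_le_one_iff _).2 h1
  have h2' : W.valuation (algebraMap K L x⁻¹) ≤ 1 := (W.valuation_le_one_iff _).2 h2
  rw [map_inv₀, map_inv₀] at h2'
  have h3 : W.valuation (algebraMap K L x) ≠ 0 := by
    rw [Valuation.ne_zero_iff]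
    exact (map_ne_zero _).2 h0
  exact le_antisymm h1' ((inv_le_one₀ (zero_lt_iff.2 h3)).1 h2')

theorem ord_of_tab_single {K L : Type*} [Field K] [Field L] [Algebra K L] {V : ValuationSubring K}
    [IsDiscreteValuationRing V] [FiniteDimensional K L] [CharZero K] {ϖ : K} (hV : IsUnif V ϖ)
    {W : ValuationSubring L} {e f : ℕ} (he : 1 ≤ e)
    (T : Tab V (fun _ : Unit => W) (fun _ => e) (fun _ => f)) {z : L} (hzU : IsUnif W z)
    (hz : W.valuation z ^ e = W.valuation (algebraMap K L ϖ)) (y : L) :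
    W.valuation (algebraMap K L (Algebra.norm K y)) = W.valuation y ^ Module.finrank K L := by
  have hn : Module.finrank K L ≠ 0 := Module.finrank_pos.ne'
  have hl : W.comap (algebraMap K L) = V := T.lies ()
  have hunit : ∀ u : L, W.valuation u = 1 → W.valuation (algebraMap K L (Algebra.norm K u)) = 1 :=
    fun u hu => ordTab_tr_eq_one hl (T.norm_unit fun _ => hu)
  have hz0 : z ≠ 0 := hzU.ne_zero
  have hϖ0 : algebraMap K L ϖ ≠ 0 := (map_ne_zero _).2 hV.ne_zero
  have hwϖ : W.valuation (algebraMap K L ϖ) ≠ 0 := (Valuation.ne_zero_iff _).2 hϖ0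
  -- the norm of `z`
  have hNz : W.valuation (algebraMap K L (Algebra.norm K z)) = W.valuation z ^ Module.finrank K L := by
    have hu' : W.valuation (z ^ e / algebraMap K L ϖ) = 1 := by
      rw [map_div₀, map_pow, hz, div_self hwϖ]
    have hze : z ^ e = algebraMap K L ϖ * (z ^ e / algebraMap K L ϖ) := by
      field_simp
    have h1 : W.valuation (algebraMap K L (Algebra.norm K (z ^ e))) =
        W.valuation (algebraMap K L ϖ) ^ Module.finrank K L := by
      rw [hze, map_mul, Algebra.norm_algebraMap, map_mul, map_mul, hunit _ hu', mul_one, map_pow,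
        map_pow]
    rw [map_pow, map_pow, map_pow, ← hz, ← pow_mul, mul_comm, pow_mul] at h1
    exact (pow_left_inj₀ zero_le zero_le (by omega)).1 h1
  rcases eq_or_ne y 0 with rfl | hy0
  · rw [Algebra.norm_zero, map_zero, map_zero, zero_pow hn]
  obtain ⟨m, hm1, hm2⟩ := hzU.exists_zpow y hy0
  have hu1 : W.valuation (y / z ^ m) = 1 :=
    (Fermat.Agent.S36.BP.valuation_eq_one_iff_mem (div_ne_zero hy0 (zpow_ne_zero _ hz0))).mpr
      ⟨hm1, hm2⟩
  have hy : y = z ^ m * (y / z ^ m) := by
    field_simp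
  conv_lhs => rw [hy, map_mul, map_mul, map_mul, hunit _ hu1, mul_one, Algebra.norm_zpow,
    map_zpow₀, map_zpow₀, hNz]
  conv_rhs => rw [hy, map_mul, hu1, mul_one, map_zpow₀]
  rw [← zpow_natCast, ← zpow_natCast, ← zpow_mul, ← zpow_mul, mul_comm]

end Fermat.Agent.S45.Tab
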