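/-
S45, project CARAYOL-K, block TAB (helper208): the RAMIFIED STEP WITHOUT THE MODULAR POLYNOMIAL
(report #1700, fix of 2(iii) of the blueprint #1687).

`W` a valuation subring of `F` of residue characteristic `q`.
* `ram_cong` : if `a₁ - b₁ ^ q = q ψ₁`, `a₂ - b₂ ^ q = q ψ₂`, `ψ₁ ≡ ψ₂`, `b₁ ≡ b₂` modulo `𝔪_W` and
  `W q ≤ W (a₁ - a₂)`, then `W (b₁ - b₂) ^ q = W (a₁ - a₂)` and `(b₁ - b₂) ^ q / (a₁ - a₂) ≡ 1`.
* `ram_cong_ratio` : the same for `b₁ / b₂ - 1`, `a₁ / a₂ - 1`.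
* `cong_of_dense` : two embeddings `μ₁ μ₂ : F₁ → F` which pull `W` back to `V` and are congruent on a
  dense subset of `V` are congruent on `V`.
* `ram_cong_hom`, `ram_cong_hom_ratio` : `a_i = μ_i A`, `b_i = μ_i B`, `A ≡ B ^ q` modulo `q V`.

[Application: level `q^k`, `W = F^a V^b`, `F₁` = level `N₀ q`, `V` = its `V`-valuation,
`A = α x`, `B = β x`; `μ₁` = the window `(E_{a+i} → E_{a+i+1})`, `μ₂` = (the window
`(E_{a-i-1} → E_{a-i})`) ∘ `w_q`; dense subset = `β (O_{W₀})`.  Then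
`(x_{a+i+1} - x_{a-i-1}) ^ q / (x_{a+i} - x_{a-i}) ≡ 1` on `W`, for EVERY `x` of level `N₀`.]
-/
import Mathlib
import Fermat.Agent.S18.Defs
import Fermat.Agent.S18.Chart.Unif

set_option autoImplicit false

namespace Fermat.Agent.S45.Tab

open Fermat.Agent.S18

variable {F : Type*} [Field F]

/-- `(b + z) ^ q - b ^ q = z ^ q + q z c` with `c ∈ W`. -/
theorem ramCong_binom (W : ValuationSubring F) {q : ℕ} (hq : q.Prime) {b z : F} (hb : b ∈ W)
    (hz : z ∈ W) : ∃ c ∈ W, (b + z) ^ q - b ^ q = z ^ q + (q : F) * (z * c) := by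
  obtain ⟨r, hr⟩ := exists_add_pow_prime_eq hq (⟨b, hb⟩ : W) ⟨z, hz⟩
  have h := congrArg (fun y : W => (y : F)) hr
  push_cast at h
  refine ⟨b * (r : F), W.mul_mem _ _ hb r.2, ?_⟩
  rw [h]
  ring

/-- **The ramified step.** -/
theorem ram_cong (W : ValuationSubring F) {q : ℕ} (hq : q.Prime) {a₁ b₁ a₂ b₂ ψ₁ ψ₂ : F}
    (hb₂ : b₂ ∈ W) (h₁ : a₁ - b₁ ^ q = (q : F) * ψ₁) (h₂ : a₂ - b₂ ^ q = (q : F) * ψ₂)
    (hψ : W.valuation (ψ₁ - ψ₂) < 1) (hz : W.valuation (b₁ - b₂) < 1) (hq0 : (q : F) ≠ 0)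
    (hs : W.valuation (q : F) ≤ W.valuation (a₁ - a₂)) :
    W.valuation (b₁ - b₂) ^ q = W.valuation (a₁ - a₂) ∧
      W.valuation ((b₁ - b₂) ^ q / (a₁ - a₂) - 1) < 1 := by
  set z := b₁ - b₂ with hzdef
  set s := a₁ - a₂ with hsdef
  have hzW : z ∈ W := (W.valuation_le_one_iff _).1 hz.le
  obtain ⟨c, hc, hbin⟩ := ramCong_binom W hq hb₂ hzW
  have hb₁ : b₂ + z = b₁ := by rw [hzdef]; ring
  rw [hb₁] at hbin
  -- `z ^ q - s = - q (z c + ψ₁ - ψ₂)`
  have key : z ^ q - s = (q : F) * (-(z * c + (ψ₁ - ψ₂))) := by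
    have : s = (b₁ ^ q - b₂ ^ q) + (q : F) * (ψ₁ - ψ₂) := by
      rw [hsdef]; linear_combination h₁ - h₂
    rw [this, hbin]; ring
  have hsmall : W.valuation (-(z * c + (ψ₁ - ψ₂))) < 1 := by
    rw [Valuation.map_neg]
    refine lt_of_le_of_lt (W.valuation.map_add _ _) (max_lt ?_ hψ)
    rw [map_mul]
    calc W.valuation z * W.valuation c ≤ W.valuation z * 1 :=
          mul_le_mul_right ((W.valuation_le_one_iff _).2 hc) _
      _ < 1 := by rwa [mul_one]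
  have hvq0 : W.valuation (q : F) ≠ 0 := (Valuation.ne_zero_iff _).2 hq0
  have hvs0 : W.valuation s ≠ 0 := fun h => hvq0 (le_antisymm (h ▸ hs) zero_le)
  have hlt : W.valuation (z ^ q - s) < W.valuation s := by
    rw [key, map_mul]
    calc W.valuation (q : F) * W.valuation (-(z * c + (ψ₁ - ψ₂)))
        < W.valuation (q : F) * 1 := by
          exact (mul_lt_mul_iff_right₀ (zero_lt_iff.2 hvq0)).2 hsmall
      _ ≤ W.valuation s := by rwa [mul_one]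
  have hs0 : s ≠ 0 := (Valuation.ne_zero_iff _).1 hvs0
  constructor
  · rw [← map_pow]
    have e : z ^ q = s + (z ^ q - s) := by ring
    rw [e]
    exact Valuation.map_add_eq_of_lt_left _ hlt
  · have e : z ^ q / s - 1 = (z ^ q - s) / s := by field_simp
    rw [e, map_div₀]
    exact (div_lt_one₀ (zero_lt_iff.2 hvs0)).2 hlt

/-- the product of two elements `≡ 1` is `≡ 1`. -/
theorem ramCong_mul_cong_one (W : ValuationSubring F) {r r' : F} (h : W.valuation (r - 1) < 1)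
    (h' : W.valuation (r' - 1) < 1) : W.valuation (r * r' - 1) < 1 := by
  have e : r * r' - 1 = (r - 1) * (r' - 1) + ((r - 1) + (r' - 1)) := by ring
  rw [e]
  refine lt_of_le_of_lt (W.valuation.map_add _ _) (max_lt ?_ ?_)
  · rw [map_mul]
    exact mul_lt_one_of_nonneg_of_lt_one_left zero_le h h'.le
  · exact lt_of_le_of_lt (W.valuation.map_add _ _) (max_lt h h')

/-- **The ramified step, ratio form.** -/
theorem ram_cong_ratio (W : ValuationSubring F) {q : ℕ} (hq : q.Prime) {a₁ b₁ a₂ b₂ ψ₁ ψ₂ : F}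
    (hb₂ : W.valuation b₂ = 1) (hψ₂ : ψ₂ ∈ W) (hqW : W.valuation (q : F) < 1)
    (h₁ : a₁ - b₁ ^ q = (q : F) * ψ₁) (h₂ : a₂ - b₂ ^ q = (q : F) * ψ₂)
    (hψ : W.valuation (ψ₁ - ψ₂) < 1) (hz : W.valuation (b₁ - b₂) < 1) (hq0 : (q : F) ≠ 0)
    (hs : W.valuation (q : F) ≤ W.valuation (a₁ - a₂)) :
    W.valuation a₂ = 1 ∧ W.valuation (b₁ / b₂ - 1) ^ q = W.valuation (a₁ / a₂ - 1) ∧
      W.valuation ((b₁ / b₂ - 1) ^ q / (a₁ / a₂ - 1) - 1) < 1 := by
  have hb₂W : b₂ ∈ W := (W.valuation_le_one_iff _).1 hb₂.le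
  obtain ⟨hv, hc⟩ := ram_cong W hq hb₂W h₁ h₂ hψ hz hq0 hs
  have hb0 : b₂ ≠ 0 := (Valuation.ne_zero_iff _).1 (by rw [hb₂]; exact one_ne_zero)
  have hbq : W.valuation (b₂ ^ q) = 1 := by rw [map_pow, hb₂, one_pow]
  have hlt : W.valuation (a₂ - b₂ ^ q) < 1 := by
    rw [h₂, map_mul]
    exact mul_lt_one_of_nonneg_of_lt_one_left zero_le hqW ((W.valuation_le_one_iff _).2 hψ₂)
  have ha₂ : W.valuation a₂ = 1 := by
    have e : a₂ = b₂ ^ q + (a₂ - b₂ ^ q) := by ring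
    rw [e, Valuation.map_add_eq_of_lt_left _ (by rw [hbq]; exact hlt), hbq]
  have ha0 : a₂ ≠ 0 := (Valuation.ne_zero_iff _).1 (by rw [ha₂]; exact one_ne_zero)
  have hvq0 : W.valuation (q : F) ≠ 0 := (Valuation.ne_zero_iff _).2 hq0
  have hs0 : a₁ - a₂ ≠ 0 := by
    intro h
    rw [h, map_zero] at hs
    exact hvq0 (le_antisymm hs zero_le)
  have e1 : b₁ / b₂ - 1 = (b₁ - b₂) / b₂ := by field_simp
  have e2 : a₁ / a₂ - 1 = (a₁ - a₂) / a₂ := by field_simp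
  refine ⟨ha₂, ?_, ?_⟩
  · rw [e1, e2, map_div₀, map_div₀, hb₂, ha₂, div_one, div_one, hv]
  · have e3 : (b₁ / b₂ - 1) ^ q / (a₁ / a₂ - 1) =
        (b₁ - b₂) ^ q / (a₁ - a₂) * (a₂ / b₂ ^ q) := by
      rw [e1, e2, div_pow]
      field_simp
    rw [e3]
    refine ramCong_mul_cong_one W hc ?_
    have e4 : a₂ / b₂ ^ q - 1 = (a₂ - b₂ ^ q) / b₂ ^ q := by field_simp
    rw [e4, map_div₀, hbq, div_one]
    exact hlt

section Hom

variable {F₁ : Type*} [Field F₁]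

theorem ramCong_val_map_lt_one {V : ValuationSubring F₁} {W : ValuationSubring F} {μ : F₁ →+* F}
    (h : W.comap μ = V) {t : F₁} (ht : V.valuation t < 1) : W.valuation (μ t) < 1 := by
  by_contra hne
  rw [not_lt] at hne
  have h0 : W.valuation (μ t) ≠ 0 := fun h0 => by rw [h0] at hne; exact absurd hne (by simp)
  have h1 : W.valuation (μ t⁻¹) ≤ 1 := by
    rw [map_inv₀, map_inv₀]
    exact inv_le_one_of_one_le₀ hne
  have h2 : t⁻¹ ∈ V := by
    rw [← h]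
    exact (W.valuation_le_one_iff _).1 h1
  have h3 := (V.valuation_le_one_iff _).2 h2
  have ht0 : t ≠ 0 := by
    rintro rfl
    rw [map_zero, map_zero] at h0
    exact h0 rfl
  have hvt0 : V.valuation t ≠ 0 := (Valuation.ne_zero_iff _).2 ht0
  rw [map_inv₀] at h3
  exact absurd ht (not_lt.2 ((inv_le_one₀ (zero_lt_iff.2 hvt0)).1 h3))

theorem ramCong_map_mem {V : ValuationSubring F₁} {W : ValuationSubring F} {μ : F₁ →+* F}
    (h : W.comap μ = V) {t : F₁} (ht : t ∈ V) : μ t ∈ W := by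
  rw [← h] at ht
  exact ht

/-- Two embeddings which pull `W` back to `V` and are congruent on a dense subset of `V` are
congruent on `V`. -/
theorem cong_of_dense {V : ValuationSubring F₁} {W : ValuationSubring F} {μ₁ μ₂ : F₁ →+* F}
    (h₁ : W.comap μ₁ = V) (h₂ : W.comap μ₂ = V) (D : Set F₁)
    (hd : ∀ y ∈ V, ∃ y' ∈ D, V.valuation (y - y') < 1)
    (hD : ∀ y' ∈ D, W.valuation (μ₁ y' - μ₂ y') < 1) :
    ∀ y ∈ V, W.valuation (μ₁ y - μ₂ y) < 1 := by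
  intro y hy
  obtain ⟨y', hy', hlt⟩ := hd y hy
  have e : μ₁ y - μ₂ y = μ₁ (y - y') + ((μ₁ y' - μ₂ y') + - μ₂ (y - y')) := by
    rw [map_sub, map_sub]; ring
  rw [e]
  refine lt_of_le_of_lt (W.valuation.map_add _ _) (max_lt (ramCong_val_map_lt_one h₁ hlt) ?_)
  refine lt_of_le_of_lt (W.valuation.map_add _ _) (max_lt (hD y' hy') ?_)
  rw [Valuation.map_neg]
  exact ramCong_val_map_lt_one h₂ hlt

/-- **The ramified step for two congruent embeddings of the level `q` field.** -/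
theorem ram_cong_hom {V : ValuationSubring F₁} {W : ValuationSubring F} {μ₁ μ₂ : F₁ →+* F}
    {q : ℕ} (hq : q.Prime) (h₂ : W.comap μ₂ = V) (hU : IsUnif V (q : F₁))
    (hcong : ∀ y ∈ V, W.valuation (μ₁ y - μ₂ y) < 1) {A B : F₁} (hB : B ∈ V)
    (hAB : V.valuation (A - B ^ q) < 1)
    (hs : W.valuation (q : F) ≤ W.valuation (μ₁ A - μ₂ A)) :
    W.valuation (μ₁ B - μ₂ B) ^ q = W.valuation (μ₁ A - μ₂ A) ∧
      W.valuation ((μ₁ B - μ₂ B) ^ q / (μ₁ A - μ₂ A) - 1) < 1 := by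
  have hq1 : (q : F₁) ≠ 0 := hU.ne_zero
  have hq0 : (q : F) ≠ 0 := by
    have := (map_ne_zero μ₁).2 hq1
    rwa [map_natCast] at this
  have hψ : (A - B ^ q) / (q : F₁) ∈ V := by
    by_cases h0 : A - B ^ q = 0
    · rw [h0, zero_div]; exact V.zero_mem
    · refine hU.div_mem ((V.valuation_le_one_iff _).1 hAB.le) fun h => ?_
      have h3 := (V.valuation_le_one_iff _).2 h
      rw [map_inv₀] at h3
      have h4 : V.valuation (A - B ^ q) ≠ 0 := (Valuation.ne_zero_iff _).2 h0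
      exact absurd hAB (not_lt.2 ((inv_le_one₀ (zero_lt_iff.2 h4)).1 h3))
  have e : ∀ μ : F₁ →+* F, μ A - μ B ^ q = (q : F) * μ ((A - B ^ q) / (q : F₁)) := by
    intro μ
    rw [map_div₀, map_sub, map_pow, map_natCast, mul_div_cancel₀ _ hq0]
  exact ram_cong W hq (ramCong_map_mem h₂ hB) (e μ₁) (e μ₂) (hcong _ hψ) (hcong _ hB) hq0 hs

/-- **The ramified step for two congruent embeddings, ratio form.** -/
theorem ram_cong_hom_ratio {V : ValuationSubring F₁} {W : ValuationSubring F} {μ₁ μ₂ : F₁ →+* F}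
    {q : ℕ} (hq : q.Prime) (h₁ : W.comap μ₁ = V) (h₂ : W.comap μ₂ = V) (hU : IsUnif V (q : F₁))
    (hcong : ∀ y ∈ V, W.valuation (μ₁ y - μ₂ y) < 1) {A B : F₁} (hB : V.valuation B = 1)
    (hAB : V.valuation (A - B ^ q) < 1)
    (hs : W.valuation (q : F) ≤ W.valuation (μ₁ A - μ₂ A)) :
    W.valuation (μ₂ A) = 1 ∧
      W.valuation (μ₁ B / μ₂ B - 1) ^ q = W.valuation (μ₁ A / μ₂ A - 1) ∧
      W.valuation ((μ₁ B / μ₂ B - 1) ^ q / (μ₁ A / μ₂ A - 1) - 1) < 1 := by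
  have hq1 : (q : F₁) ≠ 0 := hU.ne_zero
  have hq0 : (q : F) ≠ 0 := by
    have := (map_ne_zero μ₁).2 hq1
    rwa [map_natCast] at this
  have hBV : B ∈ V := (V.valuation_le_one_iff _).1 hB.le
  have hψ : (A - B ^ q) / (q : F₁) ∈ V := by
    by_cases h0 : A - B ^ q = 0
    · rw [h0, zero_div]; exact V.zero_mem
    · refine hU.div_mem ((V.valuation_le_one_iff _).1 hAB.le) fun h => ?_
      have h3 := (V.valuation_le_one_iff _).2 h
      rw [map_inv₀] at h3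
      have h4 : V.valuation (A - B ^ q) ≠ 0 := (Valuation.ne_zero_iff _).2 h0
      exact absurd hAB (not_lt.2 ((inv_le_one₀ (zero_lt_iff.2 h4)).1 h3))
  have e : ∀ μ : F₁ →+* F, μ A - μ B ^ q = (q : F) * μ ((A - B ^ q) / (q : F₁)) := by
    intro μ
    rw [map_div₀, map_sub, map_pow, map_natCast, mul_div_cancel₀ _ hq0]
  -- `μ₂ B` is a unit of `W`
  have hB0 : B ≠ 0 := (Valuation.ne_zero_iff _).1 (by rw [hB]; exact one_ne_zero)
  have hBi : B⁻¹ ∈ V := (V.valuation_le_one_iff _).1 (by rw [map_inv₀, hB, inv_one])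
  have hu : W.valuation (μ₂ B) = 1 := by
    have h3 := (W.valuation_le_one_iff _).2 (ramCong_map_mem h₂ hBV)
    have h4 := (W.valuation_le_one_iff _).2 (ramCong_map_mem h₂ hBi)
    rw [map_inv₀, map_inv₀] at h4
    have h5 : W.valuation (μ₂ B) ≠ 0 := (Valuation.ne_zero_iff _).2 ((map_ne_zero μ₂).2 hB0)
    exact le_antisymm h3 ((inv_le_one₀ (zero_lt_iff.2 h5)).1 h4)
  have hqW : W.valuation (q : F) < 1 := by
    have h3 : V.valuation (q : F₁) < 1 := by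
      have h4 : ¬ V.valuation (q : F₁)⁻¹ ≤ 1 := fun h =>
        hU.inv_notMem ((V.valuation_le_one_iff _).1 h)
      rw [not_le, map_inv₀] at h4
      by_contra h5
      rw [not_lt] at h5
      exact absurd (inv_le_one_of_one_le₀ h5) (not_le.2 h4)
    have := ramCong_val_map_lt_one h₁ h3
    rwa [map_natCast] at this
  exact ram_cong_ratio W hq hu (ramCong_map_mem h₂ hψ) hqW (e μ₁) (e μ₂) (hcong _ hψ)
    (hcong _ hBV) hq0 hs

/-- Frobenius is injective on the residue field. -/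
theorem ramCong_frob_inj (W : ValuationSubring F) {q : ℕ} (hq : q.Prime)
    (hqW : W.valuation (q : F) < 1) {u v : F} (hu : u ∈ W) (hv : v ∈ W)
    (h : W.valuation (u ^ q - v ^ q) < 1) : W.valuation (u - v) < 1 := by
  have hz : u - v ∈ W := W.sub_mem hu hv
  obtain ⟨c, hc, hbin⟩ := ramCong_binom W hq hv hz
  have e : v + (u - v) = u := by ring
  rw [e] at hbin
  have h1 : (u - v) ^ q = (u ^ q - v ^ q) + -((q : F) * ((u - v) * c)) := by rw [hbin]; ring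
  have h2 : W.valuation ((u - v) ^ q) < 1 := by
    rw [h1]
    refine lt_of_le_of_lt (W.valuation.map_add _ _) (max_lt h ?_)
    rw [Valuation.map_neg, map_mul]
    exact mul_lt_one_of_nonneg_of_lt_one_left zero_le hqW
      ((W.valuation_le_one_iff _).2 (W.mul_mem _ _ hz hc))
  rw [map_pow] at h2
  exact (pow_lt_one_iff_of_nonneg zero_le hq.ne_zero).1 h2

/-- **One step of `δ_{a+i} ≡ δ_{a-i}` modulo `𝔪_W`.**  `d₁ = δ_{a+i}`, `d₂ = δ_{a-i}`,
`e₁ = δ_{a+i+1}`, `e₂ = δ_{a-i-1}`; `k₁`, `k₂` are Kronecker's congruences on a `V`-step, resp. on an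
`F`-step (`γ` = the inverse Frobenius on the coefficients). -/
theorem cong_step {W₀ : ValuationSubring F₁} {W : ValuationSubring F} {q : ℕ} (hq : q.Prime)
    (hqW : W.valuation (q : F) < 1) (γ : F₁ →+* F₁) (hγ : ∀ g ∈ W₀, ∃ f ∈ W₀, γ f = g)
    {d₁ d₂ e₁ e₂ : F₁ →+* F} (he₁ : ∀ f ∈ W₀, e₁ f ∈ W) (he₂ : ∀ f ∈ W₀, e₂ f ∈ W)
    (k₁ : ∀ f ∈ W₀, W.valuation (d₁ f - e₁ (γ f) ^ q) < 1)
    (k₂ : ∀ f ∈ W₀, W.valuation (d₂ f - e₂ (γ f) ^ q) < 1)
    (hd : ∀ f ∈ W₀, W.valuation (d₁ f - d₂ f) < 1) :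
    ∀ g ∈ W₀, W.valuation (e₁ g - e₂ g) < 1 := by
  intro g hg
  obtain ⟨f, hf, rfl⟩ := hγ g hg
  refine ramCong_frob_inj W hq hqW (he₁ _ hg) (he₂ _ hg) ?_
  have e : e₁ (γ f) ^ q - e₂ (γ f) ^ q =
      -(d₁ f - e₁ (γ f) ^ q) + ((d₁ f - d₂ f) + (d₂ f - e₂ (γ f) ^ q)) := by ring
  rw [e]
  refine lt_of_le_of_lt (W.valuation.map_add _ _) (max_lt ?_ ?_)
  · rw [Valuation.map_neg]; exact k₁ f hf
  · exact lt_of_le_of_lt (W.valuation.map_add _ _) (max_lt (hd f hf) (k₂ f hf))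

end Hom

end Fermat.Agent.S45.Tab
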