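/-
S45 / TAB (architect helper117).  LEAF T2: uniformiser of the unique extension.
Language: `S36/BP/Build/Half*.lean` (`Tab`, `centre`, `spec`, `spec_valuation_le_one_iff`, `spec_valuation_lt_one_iff`).
PROOF.  `hW := T.lies ()`, `v := (spec hW).valuation L` (values in `ℤᵐ⁰`).  `T.fac`: `𝔪_V (IC V L) = P ^ e`, `P = centre V W`, and `ϖ` generates
`𝔪_V`, so `v (algebraMap ϖ) = exp (-e)` (`HeightOneSpectrum.intValuation`/`valuation_of_algebraMap`, `intValuation_le_pow_iff_mem` in both
directions, or `Ideal.IsDedekindDomain.ramificationIdx_eq_...`).  `z ^ e / ϖ` is a unit of `W`, so `v (z ^ e / ϖ) = 1` (`spec_valuation_le_one_iff`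
for it and its inverse), `v z ^ e = exp (-e)`, `v z = exp (-1)`.  For `y ≠ 0`: `v y = exp n`, so `v (y / z ^ (-n)) = 1`: it lies in `W` with its
inverse.
NOTE (helper244): renamed `isUnif_of_tab_single` (the name `isUnif_of_tab` is taken by `Tab/Step.lean`, helper87); nobody imports this file.
-/
import Fermat.Agent.S45.Tab.Defs
import Fermat.Agent.S36.BP.Build.HalfComplete

set_option autoImplicit false

namespace Fermat.Agent.S45.Tab

open Fermat.Agent.S18 Fermat.Agent.S36.BP.BuildHalf

open IsLocalRing IsDedekindDomain in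
theorem isUnif_of_tab_single {K L : Type*} [Field K] [Field L] [Algebra K L] {V : ValuationSubring K}
    [IsDiscreteValuationRing V] [FiniteDimensional K L] [CharZero K] {ϖ : K} (hV : IsUnif V ϖ)
    {W : ValuationSubring L} {e f : ℕ} (he : 1 ≤ e)
    (T : Tab V (fun _ : Unit => W) (fun _ => e) (fun _ => f)) {z : L}
    (hz : W.valuation z ^ e = W.valuation (algebraMap K L ϖ)) : IsUnif W z := by
  have hW : W.comap (algebraMap K L) = V := T.lies ()
  have hP : (centre V W).IsPrime := centre_isPrime hW.ge
  have hfac : (maximalIdeal V).map (algebraMap V (IC V L)) = centre V W ^ e := by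
    have := T.fac
    simpa using this
  have hmax : maximalIdeal V = Ideal.span {(⟨ϖ, hV.mem⟩ : V)} := hV.irreducible.maximalIdeal_eq
  have hspan : Ideal.span {algebraMap V (IC V L) ⟨ϖ, hV.mem⟩} = centre V W ^ e := by
    rw [← hfac, hmax, Ideal.map_span, Set.image_singleton]
  have hϖ0 : algebraMap K L ϖ ≠ 0 := (map_ne_zero _).2 hV.ne_zero
  have hwϖ : W.valuation (algebraMap K L ϖ) ≠ 0 := (Valuation.ne_zero_iff _).2 hϖ0
  have hz0 : z ≠ 0 := by
    rintro rfl
    rw [map_zero, zero_pow (by omega)] at hz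
    exact hwϖ hz.symm
  -- units of `W` have adic valuation one
  have hone : ∀ u : L, W.valuation u = 1 → (spec hW).valuation L u = 1 := by
    intro u hu
    have hu0 : u ≠ 0 := by
      rintro rfl
      rw [map_zero] at hu
      exact zero_ne_one hu
    have h1 : (spec hW).valuation L u ≤ 1 :=
      (spec_valuation_le_one_iff hW u).2 ((W.valuation_le_one_iff _).1 hu.le)
    have h2 : (spec hW).valuation L u⁻¹ ≤ 1 :=
      (spec_valuation_le_one_iff hW _).2
        ((W.valuation_le_one_iff _).1 (by rw [map_inv₀, hu, inv_one]))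
    rw [map_inv₀] at h2
    have h3 : (spec hW).valuation L u ≠ 0 := (Valuation.ne_zero_iff _).2 hu0
    exact le_antisymm h1 ((inv_le_one₀ (zero_lt_iff.2 h3)).1 h2)
  -- the adic valuation of `ϖ`
  have hvϖ : (spec hW).valuation L (algebraMap K L ϖ) = WithZero.exp (-(e : ℤ)) := by
    have h1 : (spec hW).valuation L (algebraMap K L ϖ) =
        (spec hW).intValuation (algebraMap V (IC V L) ⟨ϖ, hV.mem⟩) := by
      rw [← HeightOneSpectrum.valuation_of_algebraMap (K := L)]
      rfl
    rw [h1]
    apply le_antisymm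
    · rw [HeightOneSpectrum.intValuation_le_pow_iff_mem]
      show _ ∈ centre V W ^ e
      rw [← hspan]
      exact Ideal.mem_span_singleton_self _
    · by_contra hlt
      rw [not_le] at hlt
      have h2 : (spec hW).intValuation (algebraMap V (IC V L) ⟨ϖ, hV.mem⟩) ≤
          WithZero.exp (-((e + 1 : ℕ) : ℤ)) := by
        rw [← WithZero.lt_mul_exp_iff_le WithZero.exp_ne_zero, ← WithZero.exp_add]
        convert hlt using 2
        push_cast
        ring
      rw [HeightOneSpectrum.intValuation_le_pow_iff_mem] at h2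
      have h3 : centre V W ^ e ≤ centre V W ^ (e + 1) := by
        rw [← hspan, Ideal.span_singleton_le_iff_mem]
        exact h2
      exact absurd h3 (not_le_of_gt (Ideal.pow_succ_lt_pow (centre_ne_bot hW) e))
  -- the adic valuation of `z`
  have hvz : (spec hW).valuation L z = WithZero.exp (-1 : ℤ) := by
    have hu' : W.valuation (z ^ e / algebraMap K L ϖ) = 1 := by
      rw [map_div₀, map_pow, hz, div_self hwϖ]
    have h1 := hone _ hu'
    rw [map_div₀, map_pow, hvϖ, div_eq_one_iff_eq WithZero.exp_ne_zero] at h1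
    have h2 : WithZero.exp (-(e : ℤ)) = WithZero.exp (-1 : ℤ) ^ e := by
      rw [← WithZero.exp_nsmul]; simp
    rw [h2] at h1
    exact (pow_left_inj₀ zero_le zero_le (by omega)).1 h1
  have hmemiff : ∀ x : L, x ∈ W ↔ (spec hW).valuation L x ≤ 1 :=
    fun x => (spec_valuation_le_one_iff hW x).symm
  refine ⟨?_, ?_, ?_⟩
  · rw [hmemiff, hvz, ← WithZero.exp_zero, WithZero.exp_le_exp]
    norm_num
  · rw [hmemiff, map_inv₀, hvz, ← WithZero.exp_neg, ← WithZero.exp_zero, WithZero.exp_le_exp]
    norm_num
  · intro y hy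
    have hvy : (spec hW).valuation L y ≠ 0 := (Valuation.ne_zero_iff _).2 hy
    refine ⟨-WithZero.log ((spec hW).valuation L y), ?_⟩
    have h1 : (spec hW).valuation L (y / z ^ (-WithZero.log ((spec hW).valuation L y))) = 1 := by
      rw [map_div₀, map_zpow₀, hvz, ← WithZero.exp_zsmul, smul_eq_mul, neg_mul_neg, mul_one,
        WithZero.exp_log hvy, div_self hvy]
    rw [hmemiff, hmemiff, map_inv₀, h1, inv_one]
    exact ⟨le_rfl, le_rfl⟩

end Fermat.Agent.S45.Tab
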